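import Fermat.Agent.MazX.Place
import Fermat.Agent.X0Places.Degree
import Fermat.Agent.MzCusp.Main

set_option autoImplicit false
set_option linter.unusedSectionVars false

/-!
# Places of `X₀(p)` over `ℚ̄` attached to points of the upper half plane
-/

noncomputable section

open UpperHalfPlane ModularCurve AlgebraicCurve

attribute [-instance] Fermat.Agent.X0Places.ffField Fermat.Agent.X0Places.ffAlgebra

namespace Fermat.Agent.MazX

open Fermat.Agent.FunField Fermat.Agent.FunField.PlaceLemmas IntermediateField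
open Fermat.Agent.MzCusp
open Fermat.Agent.JInv (jInv)

local notation "Qb" => AlgebraicClosure ℚ

variable (p : ℕ) [hp : Fact p.Prime]

theorem jF_eq : (Fermat.Agent.X0Places.jF Qb p : modularFunctionFieldBar p) = (cD p).j := by
  apply Subtype.ext
  rw [(cD p).coe_j]
  exact Fermat.Agent.X0Places.coe_jF Qb p

theorem jNF_eq : (Fermat.Agent.X0Places.jNF Qb p : modularFunctionFieldBar p) = (cD p).jp := by
  apply Subtype.ext
  rw [(cD p).coe_jp]
  show coeffEmb Qb (qExpand ℚ p (jqModC ℚ)) = _
  rw [coeffEmb, ModularCurve.coeffMap_qExpand, coeffMap_jqModC]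

theorem exists_place_bar (τ : ℍ) (a b : Qb) (ha : jInv τ = iotaC a)
    (hb : jInv (X0Places.scaleH p hp.out.pos τ) = iotaC b) :
    ∃ P : Place Qb (modularFunctionFieldBar p), 0 < P.ord ((cD p).j - algebraMap Qb _ a) ∧
      0 < P.ord ((cD p).jp - algebraMap Qb _ b) := by
  have : IsFF Qb (Fermat.Agent.X0Places.FF Qb p) :=
    inferInstanceAs (IsFF Qb (modularFunctionFieldBar p))
  obtain ⟨P, h1, h2⟩ := exists_place_tau (L := Qb) iotaC p τ a b ha hb
  refine ⟨P, ?_, ?_⟩
  · rw [← jF_eq]
    exact h1
  · rw [← jNF_eq]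
    exact h2

end Fermat.Agent.MazX
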