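import Fermat.Agent.MazX.Red
import Fermat.Agent.MazX.PlaceBar

set_option autoImplicit false
set_option linter.unusedSectionVars false

/-!
# Theorem M

A rational point of `X₀(p)` that reduces to the cusp `c₁` at places over `2` and `3` does not reduce
to the other cusp at any place over `ℓ ≠ p`.
-/

noncomputable section

open UpperHalfPlane ModularCurve AlgebraicCurve

attribute [-instance] Fermat.Agent.X0Places.ffField Fermat.Agent.X0Places.ffAlgebra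

namespace Fermat.Agent.MazX

open Fermat.Agent.FunField Fermat.Agent.FunField.PlaceLemmas IntermediateField
open Fermat.Agent.MzCusp Fermat.Agent.HeckeRed
open Fermat.Agent.JInv (jInv)

local notation "Qb" => AlgebraicClosure ℚ
local notation "Γ" => (AlgebraicClosure ℚ ≃ₐ[ℚ] AlgebraicClosure ℚ)

variable (p : ℕ) [hp : Fact p.Prime]

/-- the Hecke operators `T_ℓ`, `ℓ ≠ p` -/
def heckeGens : Set (Module.End ℤ (JZero p)) :=
  {f | ∃ ℓ : Nat.Primes, (ℓ : ℕ) ≠ p ∧ f = heckeOperatorBar p ℓ}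

/-- finiteness statement at the Eisenstein prime over `q`. -/
def EisFin (q : ℕ) : Prop :=
  ∃ t ∈ Algebra.adjoin ℤ (heckeGens p), ∃ k : ℤ, t (cuspClass p) = k • cuspClass p ∧
    ¬ (q : ℤ) ∣ k ∧ ∃ m : ℕ, m ≠ 0 ∧ ∀ x : JZero p, (∀ σ : Γ, σ • x = x) → m • t x = 0

variable {p}

theorem sp_adjoin {ℓ : ℕ} {hℓ : ℓ.Prime} {A : ValuationSubring Qb} (pk : SpecPackage p ℓ hℓ A)
    {t : Module.End ℤ (JZero p)} (ht : t ∈ Algebra.adjoin ℤ (heckeGens p)) :
    ∀ x : JZero p, pk.sp x = 0 → pk.sp (t x) = 0 := by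
  induction ht using Algebra.adjoin_induction with
  | mem f hf =>
    obtain ⟨q, -, rfl⟩ := hf
    exact fun x hx => pk.hecke' q x hx
  | algebraMap k =>
    intro x hx
    have h1 : (algebraMap ℤ (Module.End ℤ (JZero p)) k) x = k • x := rfl
    rw [h1, map_zsmul, hx, smul_zero]
  | add f g _ _ hf hg =>
    intro x hx
    rw [LinearMap.add_apply, map_add, hf x hx, hg x hx, add_zero]
  | mul f g _ _ hf hg =>
    intro x hx
    rw [Module.End.mul_apply]
    exact hf _ (hg x hx)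

theorem torsion_eq_zero {A2 A3 : ValuationSubring Qb} (R2 : RedX p 2 Nat.prime_two A2)
    (R3 : RedX p 3 Nat.prime_three A3) {z : JZero p} {m : ℕ} (hm : m ≠ 0) (hz : m • z = 0)
    (h2 : R2.pk.sp z = 0) (h3 : R3.pk.sp z = 0) : z = 0 := by
  obtain ⟨i, m', hm', rfl⟩ := Nat.exists_eq_two_pow_mul_odd hm
  have h4 : 2 ^ i • z = 0 := by
    refine R2.pk.tors m' ?_ _ ?_ ?_
    · rw [← even_iff_two_dvd, Nat.not_even_iff_odd]
      exact hm'
    · rw [smul_smul, mul_comm, hz]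
    · rw [map_nsmul, h2, smul_zero]
  refine R3.pk.tors (2 ^ i) ?_ _ h4 h3
  intro h
  have := (Nat.Prime.dvd_of_dvd_pow Nat.prime_three h)
  omega

/-- the divisor class argument -/
theorem no_mix (hp' : p ∉ ({2, 3, 5, 7, 13} : Finset ℕ))
    (hF : ∀ q : ℕ, q.Prime → q ∣ p - 1 → EisFin p q)
    {P : Place Qb (modularFunctionFieldBar p)}
    (hP : ∀ σ : Γ, arithmeticGalois (modularFunctionFieldFull p) σ • P = P)
    {c₁ c₂ : Place Qb (modularFunctionFieldBar p)}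
    (hc : (c₁ = cInf p ∧ c₂ = cZero p) ∨ (c₁ = cZero p ∧ c₂ = cInf p))
    {A2 A3 A : ValuationSubring Qb} (R2 : RedX p 2 Nat.prime_two A2)
    (R3 : RedX p 3 Nat.prime_three A3) {ℓ : ℕ} {hℓ : ℓ.Prime} (R : RedX p ℓ hℓ A)
    (h2 : R2.r P = R2.r c₁) (h3 : R3.r P = R3.r c₁) (h : R.r P = R.r c₂) : False := by
  have hcr : ∀ σ : Γ, arithmeticGalois (modularFunctionFieldFull p) σ • c₁ = c₁ := by
    intro σ
    rcases hc with ⟨rfl, -⟩ | ⟨rfl, -⟩
    · exact galois_smul_cInf p σ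
    · exact galois_smul_cZero p σ
  -- the reduction of the cuspidal class
  set y := R.pk.sp (cuspClass p) with hy
  have hy0 : y ≠ 0 := R.cusp hp'
  have hytor : (p - 1) • y = 0 := by rw [hy, ← map_nsmul, cuspClass_torsion, map_zero]
  have hp1 : p - 1 ≠ 0 := by have := hp.out.one_lt; omega
  set d := addOrderOf y with hd
  have hd1 : d ≠ 1 := fun h => hy0 (AddMonoid.addOrderOf_eq_one_iff.1 h)
  have hdp : d ∣ p - 1 := addOrderOf_dvd_of_nsmul_eq_zero hytor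
  have hq : (d.minFac).Prime := Nat.minFac_prime hd1
  obtain ⟨t, ht, k, htc, hk, m, hm, hfin⟩ := hF d.minFac hq ((Nat.minFac_dvd d).trans hdp)
  -- the class `t [P - c₁]` vanishes
  have hz : t (diffClass p P c₁) = 0 := by
    refine torsion_eq_zero R2 R3 hm (hfin _ fun σ => galois_smul_diffClass p σ P c₁ (hP σ) (hcr σ))
      ?_ ?_
    · exact sp_adjoin R2.pk ht _ (R2.diff P c₁ h2)
    · exact sp_adjoin R3.pk ht _ (R3.diff P c₁ h3)
  have h4 : R.pk.sp (t (diffClass p P c₂)) = 0 := sp_adjoin R.pk ht _ (R.diff P c₂ h)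
  have h5 : t (diffClass p P c₂) = t (diffClass p c₁ c₂) := by
    rw [← diffClass_add p P c₁ c₂, map_add, hz, zero_add]
  have h6 : k • y = 0 := by
    rcases hc with ⟨rfl, rfl⟩ | ⟨rfl, rfl⟩
    · have h7 : diffClass p (cInf p) (cZero p) = - cuspClass p := by
        rw [eq_neg_iff_add_eq_zero, cuspClass, diffClass_add, diffClass_self]
      rw [h5, h7, map_neg, htc, map_neg, map_zsmul, neg_eq_zero] at h4
      exact h4
    · have h7 : diffClass p (cZero p) (cInf p) = cuspClass p := rfl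
      rw [h5, h7, htc, map_zsmul] at h4
      exact h4
  have h8 : (d : ℤ) ∣ k := by
    rw [hd]
    exact addOrderOf_dvd_iff_zsmul_eq_zero.2 h6
  exact hk (dvd_trans (Int.natCast_dvd_natCast.2 (Nat.minFac_dvd d)) h8)

/-- rational coordinates and a cuspidal reduction force the place to be rational. -/
theorem rational_place {P : Place Qb (modularFunctionFieldBar p)} {a b : ℚ}
    (hPa : 0 < P.ord ((cD p).j - algebraMap Qb _ (algebraMap ℚ Qb a)))
    (hPb : 0 < P.ord ((cD p).jp - algebraMap Qb _ (algebraMap ℚ Qb b)))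
    {ℓ : ℕ} {hℓ : ℓ.Prime} {A : ValuationSubring Qb} (R : RedX p ℓ hℓ A)
    (h : (1 < A.valuation (algebraMap ℚ Qb a) ∧
        A.valuation (algebraMap ℚ Qb a) ≤ A.valuation (algebraMap ℚ Qb b)) ∨
      (1 < A.valuation (algebraMap ℚ Qb b) ∧
        A.valuation (algebraMap ℚ Qb b) < A.valuation (algebraMap ℚ Qb a))) (σ : Γ) :
    arithmeticGalois (modularFunctionFieldFull p) σ • P = P := by
  have hca : ∀ (c : ℚ) (τ : Γ), arithmeticGalois (modularFunctionFieldFull p) τ •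
      (algebraMap Qb (modularFunctionFieldBar p) (algebraMap ℚ Qb c)) =
      algebraMap Qb (modularFunctionFieldBar p) (algebraMap ℚ Qb c) := by
    intro c τ
    apply Subtype.ext
    rw [coe_arithmeticGalois_smul]
    have h1 : ((algebraMap Qb (modularFunctionFieldBar p) (algebraMap ℚ Qb c) :
        modularFunctionFieldBar p) : LaurentSeries Qb) =
        algebraMap Qb (LaurentSeries Qb) (algebraMap ℚ Qb c) := rfl
    rw [h1, algebraMap_laurentSeries_eq_single, coeffMap_single]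
    congr 1
    exact τ.commutes c
  set P' := arithmeticGalois (modularFunctionFieldFull p) σ • P with hP'
  have hPa' : 0 < P'.ord ((cD p).j - algebraMap Qb _ (algebraMap ℚ Qb a)) := by
    rw [hP', ord_galois_smul, smul_sub, galois_smul_j, hca]
    exact hPa
  have hPb' : 0 < P'.ord ((cD p).jp - algebraMap Qb _ (algebraMap ℚ Qb b)) := by
    rw [hP', ord_galois_smul, smul_sub, galois_smul_jp, hca]
    exact hPb
  rcases h with ⟨h1, h2⟩ | ⟨h1, h2⟩
  · exact R.uniq_inf P' P _ hPa' hPa h1 (R.inf P' _ _ hPa' hPb' h1 h2) (R.inf P _ _ hPa hPb h1 h2)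
  · exact R.uniq_zero P' P _ hPb' hPb h1 (R.zero P' _ _ hPa' hPb' (h1.trans h2) h2)
      (R.zero P _ _ hPa hPb (h1.trans h2) h2)

/-- **Theorem M**, first form: `|q| < |q2|` at `2` and `3`. -/
theorem theoremM_inf (hp2 : p ≠ 2) (hp3 : p ≠ 3) (hp' : p ∉ ({2, 3, 5, 7, 13} : Finset ℕ))
    (hF : ∀ q : ℕ, q.Prime → q ∣ p - 1 → EisFin p q) (q q2 : ℚ) (τ : ℍ)
    (hq : jInv τ = (q : ℂ)) (hq2 : jInv (X0Places.scaleH p hp.out.pos τ) = (q2 : ℂ))
    (H2 : ∀ A : ValuationSubring Qb, A.LiesOverPrime 2 → 1 < A.valuation (algebraMap ℚ Qb q) ∧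
      A.valuation (algebraMap ℚ Qb q) < A.valuation (algebraMap ℚ Qb q2))
    (H3 : ∀ A : ValuationSubring Qb, A.LiesOverPrime 3 → 1 < A.valuation (algebraMap ℚ Qb q) ∧
      A.valuation (algebraMap ℚ Qb q) < A.valuation (algebraMap ℚ Qb q2))
    (ℓ : ℕ) (hℓ : ℓ.Prime) (hℓp : ℓ ≠ p) (A : ValuationSubring Qb) (hA : A.LiesOverPrime ℓ)
    (h1 : 1 < A.valuation (algebraMap ℚ Qb q)) :
    ¬ (A.valuation (algebraMap ℚ Qb q2) < A.valuation (algebraMap ℚ Qb q)) := by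
  intro hlt
  obtain ⟨A2, hA2⟩ := Fermat.Agent.Frob.exists_liesOverPrime Qb Nat.prime_two
  obtain ⟨A3, hA3⟩ := Fermat.Agent.Frob.exists_liesOverPrime Qb Nat.prime_three
  obtain ⟨R2⟩ := nonempty_redX Nat.prime_two hp2.symm A2 hA2
  obtain ⟨R3⟩ := nonempty_redX Nat.prime_three hp3.symm A3 hA3
  obtain ⟨R⟩ := nonempty_redX hℓ hℓp A hA
  have hι : ∀ c : ℚ, iotaC (algebraMap ℚ Qb c) = (c : ℂ) := fun c => by
    rw [eq_ratCast, map_ratCast]
  obtain ⟨P, hPa, hPb⟩ := exists_place_bar p τ (algebraMap ℚ Qb q) (algebraMap ℚ Qb q2)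
    (by rw [hq, hι]) (by rw [hq2, hι])
  have hrat := rational_place hPa hPb R2 (Or.inl ⟨(H2 A2 hA2).1, (H2 A2 hA2).2.le⟩)
  exact no_mix hp' hF hrat (Or.inl ⟨rfl, rfl⟩) R2 R3 R
    (R2.inf P _ _ hPa hPb (H2 A2 hA2).1 (H2 A2 hA2).2.le)
    (R3.inf P _ _ hPa hPb (H3 A3 hA3).1 (H3 A3 hA3).2.le)
    (R.zero P _ _ hPa hPb h1 hlt)

/-- **Theorem M**, second form: `|q2| < |q|` at `2` and `3`. -/
theorem theoremM_zero (hp2 : p ≠ 2) (hp3 : p ≠ 3) (hp' : p ∉ ({2, 3, 5, 7, 13} : Finset ℕ))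
    (hF : ∀ q : ℕ, q.Prime → q ∣ p - 1 → EisFin p q) (q q2 : ℚ) (τ : ℍ)
    (hq : jInv τ = (q : ℂ)) (hq2 : jInv (X0Places.scaleH p hp.out.pos τ) = (q2 : ℂ))
    (H2 : ∀ A : ValuationSubring Qb, A.LiesOverPrime 2 → 1 < A.valuation (algebraMap ℚ Qb q2) ∧
      A.valuation (algebraMap ℚ Qb q2) < A.valuation (algebraMap ℚ Qb q))
    (H3 : ∀ A : ValuationSubring Qb, A.LiesOverPrime 3 → 1 < A.valuation (algebraMap ℚ Qb q2) ∧
      A.valuation (algebraMap ℚ Qb q2) < A.valuation (algebraMap ℚ Qb q))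
    (ℓ : ℕ) (hℓ : ℓ.Prime) (hℓp : ℓ ≠ p) (A : ValuationSubring Qb) (hA : A.LiesOverPrime ℓ)
    (h1 : 1 < A.valuation (algebraMap ℚ Qb q)) :
    ¬ (A.valuation (algebraMap ℚ Qb q) ≤ A.valuation (algebraMap ℚ Qb q2)) := by
  intro hlt
  obtain ⟨A2, hA2⟩ := Fermat.Agent.Frob.exists_liesOverPrime Qb Nat.prime_two
  obtain ⟨A3, hA3⟩ := Fermat.Agent.Frob.exists_liesOverPrime Qb Nat.prime_three
  obtain ⟨R2⟩ := nonempty_redX Nat.prime_two hp2.symm A2 hA2
  obtain ⟨R3⟩ := nonempty_redX Nat.prime_three hp3.symm A3 hA3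
  obtain ⟨R⟩ := nonempty_redX hℓ hℓp A hA
  have hι : ∀ c : ℚ, iotaC (algebraMap ℚ Qb c) = (c : ℂ) := fun c => by
    rw [eq_ratCast, map_ratCast]
  obtain ⟨P, hPa, hPb⟩ := exists_place_bar p τ (algebraMap ℚ Qb q) (algebraMap ℚ Qb q2)
    (by rw [hq, hι]) (by rw [hq2, hι])
  have hrat := rational_place hPa hPb R2 (Or.inr ⟨(H2 A2 hA2).1, (H2 A2 hA2).2⟩)
  exact no_mix hp' hF hrat (Or.inr ⟨rfl, rfl⟩) R2 R3 R
    (R2.zero P _ _ hPa hPb ((H2 A2 hA2).1.trans (H2 A2 hA2).2) (H2 A2 hA2).2)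
    (R3.zero P _ _ hPa hPb ((H3 A3 hA3).1.trans (H3 A3 hA3).2) (H3 A3 hA3).2)
    (R.inf P _ _ hPa hPb h1 hlt)

end Fermat.Agent.MazX
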