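import Fermat.Agent.MazX.Wire
import Fermat.Agent.MazLQ.Final
import Fermat.Agent.LN.Main

set_option autoImplicit false

/-!
# The local inputs (blocks LQ and LN) for all primes `p ≥ 11`
-/

namespace Fermat.Agent.MazX

theorem localAll : LocalAll := by
  intro p q hp hp11 hq hqp
  have hqN : q ≠ p := by
    rintro rfl
    have h1 := Nat.le_of_dvd (by omega) hqp
    omega
  obtain ⟨AN, hAN⟩ := Fermat.Agent.Frob.exists_liesOverPrime (AlgebraicClosure ℚ) hp.out
  obtain ⟨c, hc, h⟩ := LN.locN (N := p) (q := q) hp.out (by omega) hq hqN AN hAN (MzGal.PEis p q)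
  exact MazLQ.hasLocal p hq hqN hAN hc.ne' h

end Fermat.Agent.MazX
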