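import Fermat.Agent.MazX.NodeEx
import Fermat.Agent.S05

set_option autoImplicit false

/-!
# Node data for an integral model at a place of multiplicative reduction
-/

namespace Fermat.Agent.MazX

open WeierstrassCurve WeierstrassCurve.Affine WeierstrassCurve.Affine.Point
open Fermat.Agent.EC (IsInt InE1 xX xZ TrivMod NS comp nrm IsKummer F0 F1 F2)
open Fermat.Agent.ECP

local notation "Qb" => AlgebraicClosure ℚ

/-- reduction map attached to a valuation subring -/
noncomputable def redMapOf (A : ValuationSubring Qb) :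
    A.valuation.integer →+* IsLocalRing.ResidueField A :=
  (IsLocalRing.residue A).comp
    { toFun := fun a => ⟨a, (A.valuation_le_one_iff _).mp a.2⟩
      map_one' := rfl
      map_mul' := fun _ _ => rfl
      map_zero' := rfl
      map_add' := fun _ _ => rfl }

theorem redMapOf_redMap (A : ValuationSubring Qb) : RedMap A.valuation (redMapOf A) := by
  refine ⟨fun a => ?_⟩
  show IsLocalRing.residue A ⟨a, (A.valuation_le_one_iff _).mp a.2⟩ = 0 ↔ _
  rw [IsLocalRing.residue_eq_zero_iff]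
  exact ValuationSubring.valuation_lt_one_iff A ⟨a, (A.valuation_le_one_iff _).mp a.2⟩

variable (W : WeierstrassCurve ℤ)

local notation "WQ" => (W.map (Int.castRingHom ℚ))

theorem baseChange_a₁ : (WQ⁄Qb).a₁ = (W.a₁ : Qb) := by
  simp [WeierstrassCurve.baseChange, WeierstrassCurve.map]
theorem baseChange_a₂ : (WQ⁄Qb).a₂ = (W.a₂ : Qb) := by
  simp [WeierstrassCurve.baseChange, WeierstrassCurve.map]
theorem baseChange_a₃ : (WQ⁄Qb).a₃ = (W.a₃ : Qb) := by
  simp [WeierstrassCurve.baseChange, WeierstrassCurve.map]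
theorem baseChange_a₄ : (WQ⁄Qb).a₄ = (W.a₄ : Qb) := by
  simp [WeierstrassCurve.baseChange, WeierstrassCurve.map]
theorem baseChange_a₆ : (WQ⁄Qb).a₆ = (W.a₆ : Qb) := by
  simp [WeierstrassCurve.baseChange, WeierstrassCurve.map]
theorem baseChange_c₄ : (WQ⁄Qb).c₄ = (W.c₄ : Qb) := by
  simp [WeierstrassCurve.baseChange, WeierstrassCurve.map_c₄]
theorem baseChange_Δ : (WQ⁄Qb).Δ = (W.Δ : Qb) := by
  simp [WeierstrassCurve.baseChange, WeierstrassCurve.map_Δ]

theorem isInt_baseChange {Γ₀ : Type*} [LinearOrderedCommGroupWithZero Γ₀] (v : Valuation Qb Γ₀) :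
    IsInt v (WQ⁄Qb) := by
  refine ⟨?_, ?_, ?_, ?_, ?_⟩
  · rw [baseChange_a₁]; exact EC.val_intCast_le_one v _
  · rw [baseChange_a₂]; exact EC.val_intCast_le_one v _
  · rw [baseChange_a₃]; exact EC.val_intCast_le_one v _
  · rw [baseChange_a₄]; exact EC.val_intCast_le_one v _
  · rw [baseChange_a₆]; exact EC.val_intCast_le_one v _

theorem nodeData_point {K Γ₀ : Type*} [Field K] [DecidableEq K] [LinearOrderedCommGroupWithZero Γ₀]
    {v : Valuation K Γ₀} {W : WeierstrassCurve.Affine K} {e t β : K} (hΔ : W.Δ ≠ 0)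
    (h : NodeData v W e t β) : ∃ T : W.Point, T ≠ 0 ∧ (2 : ℕ) • T = 0 ∧ xc T = e := by
  have heq : W.Equation e t := by
    rw [WeierstrassCurve.Affine.equation_iff]
    have h1 := h.eqn
    linear_combination h1
  have hns : W.Nonsingular e t := WeierstrassCurve.Affine.equation_iff_nonsingular_of_Δ_ne_zero hΔ |>.mp heq
  refine ⟨.some e t hns, ?_, ?_, rfl⟩
  · exact fun h => by simp at h
  · have hneg : -(Affine.Point.some e t hns) = .some e t hns := by
      rw [Affine.Point.neg_some]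
      have h1 := h.two_t
      have h2 : W.negY e t = t := by
        simp only [WeierstrassCurve.Affine.negY]
        linear_combination -h1
      simp only [h2]
    rw [two_nsmul]
    nth_rewrite 1 [← hneg]
    exact neg_add_cancel _

theorem inZeroComponentAt_iff {A : ValuationSubring Qb} {e t β : Qb}
    (h : NodeData A.valuation (WQ⁄Qb) e t β) (P : (WQ⁄Qb).Point) :
    W.InZeroComponentAt A P ↔ P ∈ h.E0 := by
  classical
  set v := A.valuation with hv
  by_cases hP : P = 0
  · subst hP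
    exact ⟨fun _ => h.E0.zero_mem, fun _ => Or.inl rfl⟩
  rw [h.mem_E0_iff_xc hP]
  obtain ⟨x, y, hxy, rfl⟩ := exists_eq_some hP
  have hW := h.isInt
  have heqt : (WQ⁄Qb).Equation e t := by
    rw [WeierstrassCurve.Affine.equation_iff]
    have h1 := h.eqn
    linear_combination h1
  have ht : v t ≤ 1 := hW.y_le_one heqt h.e_le
  have hEq := (WeierstrassCurve.Affine.equation_iff _ _).mp hxy.left
  show _ ↔ 1 ≤ v (x - e)
  -- translated equation
  have hEq' : (y - t) ^ 2 + (WQ⁄Qb).a₁ * (x - e) * (y - t) = (x - e) ^ 3 +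
      ((WQ⁄Qb).a₂ + 3 * e) * (x - e) ^ 2 + β * (x - e) := by
    have h1 := h.eqn
    have h2 := h.two_t
    have h3 := h.beta
    rw [h3]
    linear_combination hEq - h1 - (y - t) * h2
  have hb : v ((WQ⁄Qb).a₂ + 3 * e) ≤ 1 := by
    refine (Valuation.map_add v _ _).trans (max_le hW.a₂ ?_)
    rw [map_mul]
    exact mul_le_one' (by exact_mod_cast EC.val_natCast_le_one v 3) h.e_le
  have hβ := h.beta_lt
  have h2v : v (2 : Qb) ≤ 1 := by exact_mod_cast EC.val_natCast_le_one v 2
  have h3v : v (3 : Qb) ≤ 1 := by exact_mod_cast EC.val_natCast_le_one v 3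
  -- partial derivatives
  have hF1 : (WQ⁄Qb).a₁ * y - (3 * x ^ 2 + 2 * (WQ⁄Qb).a₂ * x + (WQ⁄Qb).a₄) =
      (WQ⁄Qb).a₁ * (y - t) - (3 * (x - e) ^ 2 + 2 * ((WQ⁄Qb).a₂ + 3 * e) * (x - e) + β) := by
    have h3 := h.beta
    rw [h3]; ring
  have hF2 : 2 * y + (WQ⁄Qb).a₁ * x + (WQ⁄Qb).a₃ = 2 * (y - t) + (WQ⁄Qb).a₁ * (x - e) := by
    have h2 := h.two_t
    linear_combination h2
  -- residues
  have hres : ∀ (hx : x ∈ A) (hy : y ∈ A),
      ((W.map (Int.castRingHom (IsLocalRing.ResidueField A))).toAffine.Nonsingular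
        (IsLocalRing.residue A ⟨x, hx⟩) (IsLocalRing.residue A ⟨y, hy⟩) ↔
      ¬ (v ((WQ⁄Qb).a₁ * y - (3 * x ^ 2 + 2 * (WQ⁄Qb).a₂ * x + (WQ⁄Qb).a₄)) < 1 ∧
        v (2 * y + (WQ⁄Qb).a₁ * x + (WQ⁄Qb).a₃) < 1)) := by
    intro hx hy
    set X : A := ⟨x, hx⟩ with hX
    set Y : A := ⟨y, hy⟩ with hY
    have e1 : (WQ⁄Qb).a₁ * y - (3 * x ^ 2 + 2 * (WQ⁄Qb).a₂ * x + (WQ⁄Qb).a₄) =
        (((W.a₁ : A) * Y - (3 * X ^ 2 + 2 * (W.a₂ : A) * X + (W.a₄ : A)) : A) : Qb) := by
      rw [baseChange_a₁, baseChange_a₂, baseChange_a₄]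
      push_cast
      rfl
    have e2 : 2 * y + (WQ⁄Qb).a₁ * x + (WQ⁄Qb).a₃ =
        ((2 * Y + (W.a₁ : A) * X + (W.a₃ : A) : A) : Qb) := by
      rw [baseChange_a₁, baseChange_a₃]
      push_cast
      rfl
    have e3 : Y ^ 2 + (W.a₁ : A) * X * Y + (W.a₃ : A) * Y =
        X ^ 3 + (W.a₂ : A) * X ^ 2 + (W.a₄ : A) * X + (W.a₆ : A) := by
      apply Subtype.ext
      have := hEq
      rw [baseChange_a₁, baseChange_a₂, baseChange_a₃, baseChange_a₄, baseChange_a₆] at this
      push_cast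
      exact this
    have hlt : ∀ a : A, A.valuation (a : Qb) < 1 ↔ IsLocalRing.residue A a = 0 := fun a => by
      rw [IsLocalRing.residue_eq_zero_iff]
      exact (ValuationSubring.valuation_lt_one_iff A a).symm
    rw [e1, e2, hv, hlt, hlt,
      WeierstrassCurve.Affine.nonsingular_iff', WeierstrassCurve.Affine.equation_iff]
    have e3' := congrArg (IsLocalRing.residue A) e3
    simp only [map_add, map_mul, map_pow, map_intCast] at e3'
    simp only [map_sub, map_add, map_mul, map_pow, map_intCast, map_ofNat,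
      WeierstrassCurve.map_a₁, WeierstrassCurve.map_a₂, WeierstrassCurve.map_a₃,
      WeierstrassCurve.map_a₄, WeierstrassCurve.map_a₆, eq_intCast]
    rw [not_and_or]
    constructor
    · exact fun h => h.2
    · exact fun h => ⟨e3', h⟩
  constructor
  · rintro (h0 | ⟨x', y', h', heq, hcase⟩)
    · exact absurd h0 (by simp)
    obtain ⟨rfl, rfl⟩ := Affine.Point.some.inj heq
    rcases hcase with hx | ⟨hx, hy, hns⟩
    · rw [← A.valuation_le_one_iff, not_le] at hx
      have : v e < v x := lt_of_le_of_lt h.e_le hx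
      rw [Valuation.map_sub_eq_of_lt_left v this]
      exact hx.le
    · by_contra hcon
      rw [not_le] at hcon
      apply (hres hx hy).mp hns
      have hy' : v y ≤ 1 := (A.valuation_le_one_iff _).mpr hy
      have hη : v (y - t) < 1 := by
        by_contra hη
        rw [not_lt] at hη
        have hr : v ((x - e) ^ 3 + ((WQ⁄Qb).a₂ + 3 * e) * (x - e) ^ 2 + β * (x - e)) < 1 := by
          refine Valuation.map_add_lt v (Valuation.map_add_lt v ?_ ?_) ?_
          · rw [map_pow]; exact pow_lt_one₀ zero_le hcon three_ne_zero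
          · rw [map_mul, map_pow]
            exact lt_of_le_of_lt (mul_le_of_le_one_left' hb) (pow_lt_one₀ zero_le hcon two_ne_zero)
          · rw [map_mul]
            exact lt_of_le_of_lt (mul_le_of_le_one_left' hβ.le) hcon
        rw [← hEq'] at hr
        have hl : v ((WQ⁄Qb).a₁ * (x - e) * (y - t)) < v ((y - t) ^ 2) := by
          rw [map_mul, map_mul, map_pow, pow_two]
          have h1 : v (WQ⁄Qb).a₁ * v (x - e) < 1 :=
            lt_of_le_of_lt (mul_le_of_le_one_left' hW.a₁) hcon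
          have h0 : 0 < v (y - t) := lt_of_lt_of_le zero_lt_one hη
          exact mul_lt_mul_of_pos_right (lt_of_lt_of_le h1 hη) h0
        rw [Valuation.map_add_eq_of_lt_left v hl, map_pow] at hr
        exact absurd hr (not_lt.mpr (one_le_pow₀ hη))
      constructor
      · rw [hF1]
        refine Valuation.map_sub_lt v ?_ (Valuation.map_add_lt v (Valuation.map_add_lt v ?_ ?_) hβ)
        · rw [map_mul]; exact lt_of_le_of_lt (mul_le_of_le_one_left' hW.a₁) hη
        · rw [map_mul, map_pow]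
          exact lt_of_le_of_lt (mul_le_of_le_one_left' h3v) (pow_lt_one₀ zero_le hcon two_ne_zero)
        · rw [map_mul, map_mul]
          exact lt_of_le_of_lt (mul_le_of_le_one_left' (mul_le_one' h2v hb)) hcon
      · rw [hF2]
        refine Valuation.map_add_lt v ?_ ?_
        · rw [map_mul]; exact lt_of_le_of_lt (mul_le_of_le_one_left' h2v) hη
        · rw [map_mul]; exact lt_of_le_of_lt (mul_le_of_le_one_left' hW.a₁) hcon
  · intro hle
    refine Or.inr ⟨x, y, hxy, rfl, ?_⟩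
    by_cases hx : x ∈ A
    · right
      have hx1 : v x ≤ 1 := (A.valuation_le_one_iff _).mpr hx
      have hy1 : v y ≤ 1 := hW.y_le_one hxy.left hx1
      have hy : y ∈ A := (A.valuation_le_one_iff _).mp hy1
      refine ⟨hx, hy, (hres hx hy).mpr ?_⟩
      rintro ⟨k1, k2⟩
      rw [hF1] at k1
      rw [hF2] at k2
      have hξ1 : v (x - e) ≤ 1 := (Valuation.map_sub v _ _).trans (max_le hx1 h.e_le)
      have hη1 : v (y - t) ≤ 1 := (Valuation.map_sub v _ _).trans (max_le hy1 ht)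
      have hkey : (x - e) ^ 3 = β * (x - e) - (x - e) * ((WQ⁄Qb).a₁ * (y - t) -
          (3 * (x - e) ^ 2 + 2 * ((WQ⁄Qb).a₂ + 3 * e) * (x - e) + β)) -
          (y - t) * (2 * (y - t) + (WQ⁄Qb).a₁ * (x - e)) := by
        linear_combination 2 * hEq'
      have hlt : v ((x - e) ^ 3) < 1 := by
        rw [hkey]
        refine Valuation.map_sub_lt v (Valuation.map_sub_lt v ?_ ?_) ?_
        · rw [map_mul]; exact lt_of_le_of_lt (mul_le_of_le_one_right' hξ1) hβ
        · rw [map_mul]; exact lt_of_le_of_lt (mul_le_of_le_one_left' hξ1) k1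
        · rw [map_mul]; exact lt_of_le_of_lt (mul_le_of_le_one_left' hη1) k2
      rw [map_pow] at hlt
      exact absurd hlt (not_lt.mpr (one_le_pow₀ hle))
    · exact Or.inl hx

/-- node data at a place of multiplicative reduction of an integral model -/
theorem exists_node_of_mult (hΔ : W.Δ ≠ 0) {ℓ : ℕ} (hℓ : ℓ.Prime) {A : ValuationSubring Qb}
    (hA : A.LiesOverPrime ℓ) (hℓΔ : (ℓ : ℤ) ∣ W.Δ) (hℓc₄ : ¬ (ℓ : ℤ) ∣ W.c₄) :
    ∃ T : (WQ⁄Qb).Point, T ≠ 0 ∧ (2 : ℕ) • T = 0 ∧ ∃ (t β : Qb)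
      (h : NodeData A.valuation (WQ⁄Qb) (xc T) t β),
      ∀ P : (WQ⁄Qb).Point, W.InZeroComponentAt A P ↔ P ∈ h.E0 := by
  have hvq : A.valuation (ℓ : Qb) < 1 := A.mem_nonunits_iff.mp hA
  have hΔ0 : (WQ⁄Qb).Δ ≠ 0 := by
    rw [baseChange_Δ]; exact_mod_cast hΔ
  obtain ⟨e, t, β, h⟩ := exists_nodeData (isInt_baseChange W A.valuation)
    (by rw [baseChange_c₄]; exact S05.val_int_eq_one hℓ hvq hℓc₄) hΔ0
    (by rw [baseChange_Δ]; exact S05.val_int_lt_one hvq hℓΔ)
  obtain ⟨T, hT, h2T, rfl⟩ := nodeData_point hΔ0 h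
  exact ⟨T, hT, h2T, t, β, h, inZeroComponentAt_iff W h⟩

end Fermat.Agent.MazX
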