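import Fermat.Agent.ECP.Node

set_option autoImplicit false

/-!
# The component function at a node: domain, translation invariance, counting in `E₀`
-/

namespace Fermat.Agent.MazX

open WeierstrassCurve WeierstrassCurve.Affine WeierstrassCurve.Affine.Point
open Fermat.Agent.EC (IsInt InE1 xX xZ TrivMod NS comp nrm IsKummer)
open Fermat.Agent.ECP

section Dom

variable {Γ₀ : Type*} [LinearOrderedCommGroupWithZero Γ₀]

/-- `[g, 1]` is a fundamental domain for `Sim g`. -/
lemma eq_of_sim {g a b : Γ₀} (hg : 0 < g) (hg1 : g < 1) (ha : g ≤ a) (ha1 : a ≤ 1) (hb : g ≤ b)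
    (hb1 : b ≤ 1) (h : EC.Sim g a b) : a = b := by
  have ha0 : 0 < a := lt_of_lt_of_le hg ha
  have hb0 : 0 < b := lt_of_lt_of_le hg hb
  have hpow : ∀ k : ℤ, 1 ≤ k → g ^ (2 * k) ≤ g ^ 2 := by
    intro k hk
    have := zpow_le_zpow_right_of_le_one₀ hg hg1.le (m := 2) (n := 2 * k) (by omega)
    exact_mod_cast this
  have hg2 : g ^ 2 < g := by
    have := pow_lt_pow_right_of_lt_one₀ hg hg1 (m := 1) (n := 2) (by norm_num)
    rwa [pow_one] at this
  obtain ⟨k, hk | hk⟩ := h
  · rcases lt_trichotomy k 0 with h0 | h0 | h0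
    · -- `a = b g^(2(-k))`
      exfalso
      have e : a = b * g ^ (2 * (-k)) := by
        rw [hk, mul_assoc, ← zpow_add₀ hg.ne']
        simp
      have : a ≤ g ^ 2 := by
        rw [e]
        exact (mul_le_of_le_one_left' hb1).trans (hpow _ (by omega))
      exact absurd (this.trans_lt hg2) (not_lt.mpr ha)
    · rw [hk, h0]; simp
    · exfalso
      have : b ≤ g ^ 2 := by
        rw [hk]
        exact (mul_le_of_le_one_left' ha1).trans (hpow _ (by omega))
      exact absurd (this.trans_lt hg2) (not_lt.mpr hb)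
  · have e : a * b = g ^ (2 * k) := by
      rw [hk, ← mul_assoc, mul_inv_cancel₀ ha0.ne', one_mul]
    have h1 : a * b ≤ 1 := mul_le_one' ha1 hb1
    have h2 : g ^ 2 ≤ a * b := by rw [pow_two]; exact mul_le_mul' ha hb
    rcases lt_trichotomy k 0 with h0 | h0 | h0
    · exfalso
      have : 1 < g ^ (2 * k) := one_lt_zpow_of_neg₀ hg hg1 (by omega)
      rw [← e] at this
      exact absurd h1 (not_le.mpr this)
    · rw [h0] at e
      simp only [mul_zero, zpow_zero] at e
      obtain ⟨h3, h4⟩ := EC.mul_eq_one_of_le ha1 hb1 e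
      rw [h3, h4]
    · -- `k = 1` : `a = b = g`
      have h3 : a * b ≤ g ^ 2 := by rw [e]; exact hpow k (by omega)
      have h4 : a * b = g ^ 2 := le_antisymm h3 h2
      have ha' : a = g := by
        refine le_antisymm ?_ ha
        by_contra hcon
        rw [not_le] at hcon
        have : g * g < a * b := lt_of_lt_of_le (mul_lt_mul_of_pos_right hcon hg)
          (mul_le_mul_right hb a)
        rw [h4, pow_two] at this
        exact lt_irrefl _ this
      have hb' : b = g := by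
        rw [ha', pow_two] at h4
        exact mul_left_cancel₀ hg.ne' h4
      rw [ha', hb']

end Dom

section Node

variable {K Γ₀ : Type*} [Field K] [LinearOrderedCommGroupWithZero Γ₀] {v : Valuation K Γ₀}
  {W : WeierstrassCurve.Affine K} {e t β : K} [DecidableEq K]

lemma cmp_add_of_mem (h : NodeData v W e t β) (P : W.Point) {Q : W.Point} (hQ : Q ∈ h.E0) :
    cmp v W e β (P + Q) = cmp v W e β P := by
  have hpair := EC.comp_pair (v := v) h.isKummer h.beta_pos h.beta_lt h.unit P Q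
  change EC.PairSim (v β) (cmp v W e β (P + Q)) (cmp v W e β (P - Q))
    (cmp v W e β P * cmp v W e β Q) (cmp v W e β P / cmp v W e β Q) at hpair
  rw [h.mem_E0_iff'] at hQ
  rw [hQ, mul_one, div_one] at hpair
  have hs : EC.Sim (v β) (cmp v W e β (P + Q)) (cmp v W e β P) := by
    rcases hpair with ⟨h1, -⟩ | ⟨h1, -⟩ <;> exact h1
  exact eq_of_sim h.beta_pos h.beta_lt (h.le_cmp _) (h.cmp_le _) (h.le_cmp _) (h.cmp_le _) hs

lemma mem_of_cmp_eq (h : NodeData v W e t β) {P Q : W.Point}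
    (hPQ : cmp v W e β P = cmp v W e β Q) : P + Q ∈ h.E0 ∨ P - Q ∈ h.E0 := by
  have hpair := EC.comp_pair (v := v) h.isKummer h.beta_pos h.beta_lt h.unit P Q
  change EC.PairSim (v β) (cmp v W e β (P + Q)) (cmp v W e β (P - Q))
    (cmp v W e β P * cmp v W e β Q) (cmp v W e β P / cmp v W e β Q) at hpair
  rw [hPQ, div_self (h.cmp_pos Q).ne'] at hpair
  have hone : ∀ {R : W.Point}, EC.Sim (v β) (cmp v W e β R) 1 → R ∈ h.E0 := by
    intro R hR
    rw [h.mem_E0_iff']
    exact h.eq_one_of_sim hR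
  rcases hpair with ⟨-, h1⟩ | ⟨h1, -⟩
  · exact Or.inr (hone h1)
  · exact Or.inl (hone h1)

omit [DecidableEq K] in
lemma cmp_neg (_h : NodeData v W e t β) (P : W.Point) : cmp v W e β (-P) = cmp v W e β P := by
  unfold ECP.cmp comp nrm
  simp only [EC.xX_neg, EC.xZ_neg]

/-- points outside `E₀`, of odd order, have `β < |X| = cmp < 1`. -/
lemma cmp_of_not_mem (h : NodeData v W e t β) {m : ℕ} (hm : Odd m) {P : W.Point}
    (hmP : m • P = 0) (hP : P ∉ h.E0) :
    v (xc P - e) = cmp v W e β P ∧ v β < v (xc P - e) ∧ v (xc P - e) < 1 := by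
  have hP0 : P ≠ 0 := by rintro rfl; exact hP (zero_mem _)
  have h1 := h.lt_cmp_of_torsion hm hmP
  obtain ⟨x, y, hxy, rfl⟩ := exists_eq_some hP0
  rw [h.mem_E0_iff_xc hP0, xc_some, not_le] at hP
  have h2 := h.cmp_some_of_lt hxy hP
  rw [xc_some]
  rw [h2] at h1 ⊢
  rcases lt_max_iff.mp h1 with h3 | h3
  · exact ⟨(max_eq_left h3.le).symm, h3, hP⟩
  · exact absurd h3 (lt_irrefl _)

/-- points of `E₀ ∖ E₁` have `|X| = 1`. -/
lemma val_of_mem_E0 (h : NodeData v W e t β) {P : W.Point} (hP0 : P ≠ 0) (hP : P ∈ h.E0)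
    (hP1 : v (xc P) ≤ 1) : v (xc P - e) = 1 := by
  refine le_antisymm ((v.map_sub _ _).trans (max_le hP1 h.e_le)) ?_
  exact (h.mem_E0_iff_xc hP0).mp hP

/-- torsion of order prime to the residue characteristic has integral coordinates. -/
lemma xc_le_one_of_torsion (hW : IsInt v W) {m : ℕ} (hm : v (m : K) = 1) {P : W.Point}
    (hmP : m • P = 0) (hP0 : P ≠ 0) : v (xc P) ≤ 1 := by
  by_contra hcon
  rw [not_le] at hcon
  exact hP0 (hW.eq_zero_of_inE1 ((inE1_iff hP0).mpr hcon) hm hmP)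

/-- values of the component function on points of order `p` modulo `E₀`. -/
lemma exists_pow_cmp (h : NodeData v W e t β) {m p : ℕ} (hm : Odd m) (hp : 0 < p) {P : W.Point}
    (hmP : m • P = 0) (hP : P ∉ h.E0) (hpP : p • P ∈ h.E0) :
    ∃ i : ℕ, 1 ≤ i ∧ 2 * i < p ∧ cmp v W e β P ^ p = v β ^ (2 * i) := by
  have hβ0 := h.beta_pos
  have hβ1 := h.beta_lt
  obtain ⟨h1, h2, h3⟩ := cmp_of_not_mem h hm hmP hP
  rw [h1] at h2 h3
  have h4 := (EC.comp_nsmul (v := v) h.isKummer hβ0 hβ1 h.unit P p).1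
  change EC.Sim (v β) (cmp v W e β (p • P)) (cmp v W e β P ^ p) at h4
  rw [(h.mem_E0_iff').mp hpP] at h4
  obtain ⟨k, hk⟩ := h4
  have hk' : cmp v W e β P ^ p = v β ^ (2 * k) := by
    rcases hk with hk | hk
    · rw [hk, one_mul]
    · rw [hk, inv_one, one_mul]
  have hlt1 : cmp v W e β P ^ p < 1 := pow_lt_one₀ zero_le h3 hp.ne'
  have hkpos : 0 < k := by
    by_contra hcon
    rw [not_lt] at hcon
    have : 1 ≤ v β ^ (2 * k) := one_le_zpow_of_nonpos₀ hβ0 hβ1.le (by omega)
    rw [← hk'] at this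
    exact absurd hlt1 (not_lt.mpr this)
  have hkp : 2 * k < p := by
    by_contra hcon
    rw [not_lt] at hcon
    have h5 : v β ^ (2 * k) ≤ v β ^ (p : ℤ) := zpow_le_zpow_right_of_le_one₀ hβ0 hβ1.le hcon
    rw [← hk', zpow_natCast] at h5
    have h6 : v β ^ p < cmp v W e β P ^ p := pow_lt_pow_left₀ h2 zero_le hp.ne'
    exact absurd h6 (not_lt.mpr h5)
  obtain ⟨i, rfl⟩ := Int.eq_ofNat_of_zero_le hkpos.le
  refine ⟨i, by omega, by omega, ?_⟩
  rw [hk']
  exact_mod_cast zpow_natCast (v β) (2 * i)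

end Node

end Fermat.Agent.MazX
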