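import Fermat.Agent.MazX.Local1

set_option autoImplicit false

/-!
# Counting torsion in `E₀` at a node
-/

namespace Fermat.Agent.MazX

open WeierstrassCurve WeierstrassCurve.Affine WeierstrassCurve.Affine.Point
open Fermat.Agent.EC (IsInt InE1 xX xZ TrivMod NS comp nrm IsKummer F0 F1 F2)
open Fermat.Agent.ECP

section Node

variable {K Γ₀ : Type*} [Field K] [LinearOrderedCommGroupWithZero Γ₀] {v : Valuation K Γ₀}
  {W : WeierstrassCurve.Affine K} {e t β : K} [DecidableEq K]

/-- `w = Z / X = 1 / (x - e)`. -/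
noncomputable def ww (e : K) (P : W.Point) : K := xZ P / (xX P - e * xZ P)

omit [DecidableEq K] in
lemma ww_zero (e : K) : ww e (0 : W.Point) = 0 := by simp [ww]

omit [DecidableEq K] in
lemma ww_neg (e : K) (P : W.Point) : ww e (-P) = ww e P := by
  simp [ww]

lemma X_ne_zero (h : NodeData v W e t β) {P : W.Point} (hP : P ∈ h.E0) :
    xX P - e * xZ P ≠ 0 := by
  intro h0
  rw [h.mem_E0_iff, h0, _root_.map_zero] at hP
  have hZ : xZ P = 0 := (v.zero_iff).mp (le_antisymm hP zero_le)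
  rcases h.isKummer.ne_zero P with h1 | h1
  · exact h1 h0
  · exact h1 hZ

lemma ww_le_one (h : NodeData v W e t β) {P : W.Point} (hP : P ∈ h.E0) : v (ww e P) ≤ 1 := by
  have h1 := X_ne_zero h hP
  rw [ww, map_div₀]
  exact (div_le_one₀ (lt_of_le_of_ne zero_le (Ne.symm (v.ne_zero_iff.mpr h1)))).mpr
    ((h.mem_E0_iff).mp hP)

/-- the addition relation in terms of `w` -/
lemma ww_add_sub (h : NodeData v W e t β) {P Q : W.Point} (hP : P ∈ h.E0) (hQ : Q ∈ h.E0) :
    (ww e (P + Q) + ww e (P - Q)) * (1 - β * ww e P * ww e Q) ^ 2 =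
        2 * (ww e P + ww e Q) + (W.b₂ + 12 * e) * ww e P * ww e Q +
          2 * β * (ww e P + ww e Q) * ww e P * ww e Q ∧
      ww e (P + Q) * ww e (P - Q) * (1 - β * ww e P * ww e Q) ^ 2 = (ww e P - ww e Q) ^ 2 := by
  obtain ⟨μ, hμ, e0, e1, e2⟩ := h.isKummer.rel P Q
  have hXP := X_ne_zero h hP
  have hXQ := X_ne_zero h hQ
  have hXp := X_ne_zero h (add_mem hP hQ)
  have hXm := X_ne_zero h (sub_mem hP hQ)
  simp only [F0, F1, F2] at e0 e1 e2
  simp only [ww]
  set XP := xX P - e * xZ P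
  set XQ := xX Q - e * xZ Q
  set Xp := xX (P + Q) - e * xZ (P + Q)
  set Xm := xX (P - Q) - e * xZ (P - Q)
  set ZP := xZ P
  set ZQ := xZ Q
  set Zp := xZ (P + Q)
  set Zm := xZ (P - Q)
  have f0 : Xp * Xm = μ * (XP * XQ - β * (ZP * ZQ)) ^ 2 := by rw [e0]; ring
  have hne : XP * XQ - β * (ZP * ZQ) ≠ 0 := by
    intro h0
    rw [h0, zero_pow two_ne_zero, mul_zero] at f0
    exact (mul_ne_zero hXp hXm) f0
  have a2 : 1 - β * (ZP / XP) * (ZQ / XQ) = (XP * XQ - β * (ZP * ZQ)) / (XP * XQ) := by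
    field_simp
  have key : ∀ N D : K, D ≠ 0 → μ * N / (μ * D ^ 2) * (D / (XP * XQ)) ^ 2 =
      N / (XP * XQ) ^ 2 := by
    intro N D hD
    field_simp
  constructor
  · have a1 : Zp / Xp + Zm / Xm = (Xp * Zm + Xm * Zp) / (Xp * Xm) := by field_simp; ring
    rw [a1, e1, f0, a2, key _ _ hne]
    field_simp
    ring
  · have a1 : Zp / Xp * (Zm / Xm) = (Zp * Zm) / (Xp * Xm) := by field_simp
    rw [a1, e2, f0, a2, key _ _ hne]
    field_simp
    ring

/-- A reduction map of the valuation ring. -/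
structure RedMap (v : Valuation K Γ₀) {k : Type*} [Field k] (π : v.integer →+* k) : Prop where
  ker : ∀ a, π a = 0 ↔ v (a : K) < 1

variable {k : Type*} [Field k] {π : v.integer →+* k}

open Classical in
/-- reduction of `w` -/
noncomputable def wr (π : v.integer →+* k) (e : K) (P : W.Point) : k :=
  if hP : v (ww e P) ≤ 1 then π ⟨ww e P, hP⟩ else 0

omit [DecidableEq K] in
lemma wr_of_le {P : W.Point} (hP : v (ww e P) ≤ 1) : wr π e P = π ⟨ww e P, hP⟩ := by
  rw [wr, dif_pos hP]

omit [DecidableEq K] in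
lemma wr_zero : wr π e (0 : W.Point) = 0 := by
  have h : v (ww e (0 : W.Point)) ≤ 1 := by rw [ww_zero, _root_.map_zero]; exact zero_le
  rw [wr_of_le h]
  have : (⟨ww e (0 : W.Point), h⟩ : v.integer) = 0 := Subtype.ext (ww_zero e)
  rw [this, _root_.map_zero]

omit [DecidableEq K] in
lemma wr_neg (P : W.Point) : wr π e (-P) = wr π e P := by
  unfold wr; simp only [ww_neg]

lemma wr_add_sub (h : NodeData v W e t β) (hπ : RedMap v π) {P Q : W.Point} (hP : P ∈ h.E0)
    (hQ : Q ∈ h.E0) (hB : v (W.b₂ + 12 * e) ≤ 1) :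
    wr π e (P + Q) + wr π e (P - Q) = 2 * (wr π e P + wr π e Q) +
        π ⟨W.b₂ + 12 * e, hB⟩ * wr π e P * wr π e Q ∧
      wr π e (P + Q) * wr π e (P - Q) = (wr π e P - wr π e Q) ^ 2 := by
  have hp := ww_le_one h hP
  have hq := ww_le_one h hQ
  have hpq := ww_le_one h (add_mem hP hQ)
  have hpm := ww_le_one h (sub_mem hP hQ)
  have hβ : v β ≤ 1 := h.beta_lt.le
  obtain ⟨r1, r2⟩ := ww_add_sub h hP hQ
  rw [wr_of_le hp, wr_of_le hq, wr_of_le hpq, wr_of_le hpm]
  set P' : v.integer := ⟨ww e P, hp⟩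
  set Q' : v.integer := ⟨ww e Q, hq⟩
  set p' : v.integer := ⟨ww e (P + Q), hpq⟩
  set m' : v.integer := ⟨ww e (P - Q), hpm⟩
  set B' : v.integer := ⟨W.b₂ + 12 * e, hB⟩
  set β' : v.integer := ⟨β, hβ⟩
  have hβ0 : π β' = 0 := (hπ.ker β').mpr h.beta_lt
  have s1 : (p' + m') * (1 - β' * P' * Q') ^ 2 = 2 * (P' + Q') + B' * P' * Q' +
      2 * β' * (P' + Q') * P' * Q' := Subtype.ext r1
  have s2 : p' * m' * (1 - β' * P' * Q') ^ 2 = (P' - Q') ^ 2 := Subtype.ext r2
  have t1 := congrArg π s1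
  have t2 := congrArg π s2
  simp only [map_mul, map_add, map_sub, map_pow, map_one, map_ofNat, hβ0] at t1 t2
  constructor
  · linear_combination t1
  · linear_combination t2

/-- Chebyshev-type polynomials -/
noncomputable def TT (B : k) : ℕ → Polynomial k
  | 0 => 0
  | 1 => Polynomial.X
  | n + 2 => 2 * TT B (n + 1) + 2 * Polynomial.X + Polynomial.C B * Polynomial.X * TT B (n + 1)
      - TT B n

lemma wr_nsmul (h : NodeData v W e t β) (hπ : RedMap v π) {P : W.Point} (hP : P ∈ h.E0)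
    (hB : v (W.b₂ + 12 * e) ≤ 1) (n : ℕ) :
    wr π e (n • P) = (TT (π ⟨W.b₂ + 12 * e, hB⟩) n).eval (wr π e P) ∧
    wr π e ((n + 1) • P) = (TT (π ⟨W.b₂ + 12 * e, hB⟩) (n + 1)).eval (wr π e P) := by
  induction n with
  | zero => simp [TT, wr_zero]
  | succ n ih =>
    refine ⟨ih.2, ?_⟩
    have h1 := (wr_add_sub h hπ (nsmul_mem hP (n + 1)) hP hB).1
    have e1 : (n + 1) • P + P = (n + 1 + 1) • P := (succ_nsmul _ _).symm
    have e2 : (n + 1) • P - P = n • P := by rw [succ_nsmul]; abel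
    rw [e1, e2, ih.1, ih.2] at h1
    have h2 : (TT (π ⟨W.b₂ + 12 * e, hB⟩) (n + 1 + 1)).eval (wr π e P) =
        2 * (TT (π ⟨W.b₂ + 12 * e, hB⟩) (n + 1)).eval (wr π e P) + 2 * wr π e P +
        π ⟨W.b₂ + 12 * e, hB⟩ * wr π e P * (TT (π ⟨W.b₂ + 12 * e, hB⟩) (n + 1)).eval (wr π e P) -
        (TT (π ⟨W.b₂ + 12 * e, hB⟩) n).eval (wr π e P) := by
      rw [TT]
      simp
    rw [h2]
    linear_combination h1

lemma TT_degree {B : k} (hB : B ≠ 0) (n : ℕ) :
    ((TT B (n + 1)).natDegree = n + 1 ∧ (TT B (n + 1)).leadingCoeff = B ^ n) ∧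
      (TT B n).natDegree ≤ n := by
  induction n with
  | zero => simp [TT]
  | succ n ih =>
    obtain ⟨⟨ih1, ih2⟩, ih3⟩ := ih
    refine ⟨?_, ih1.le⟩
    have hne : TT B (n + 1) ≠ 0 := by
      intro h0; rw [h0] at ih1; simp at ih1
    have hmain : (Polynomial.C B * Polynomial.X * TT B (n + 1)).natDegree = n + 1 + 1 := by
      rw [mul_assoc, Polynomial.natDegree_C_mul hB, Polynomial.natDegree_X_mul hne, ih1]
    have hlow : (2 * TT B (n + 1) + 2 * Polynomial.X - TT B n).natDegree ≤ n + 1 := by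
      refine (Polynomial.natDegree_sub_le _ _).trans (max_le ?_ (ih3.trans (by omega)))
      refine (Polynomial.natDegree_add_le _ _).trans (max_le ?_ ?_)
      · have : (2 : Polynomial k) * TT B (n + 1) = Polynomial.C 2 * TT B (n + 1) := by
          rw [map_ofNat]
        rw [this]
        exact (Polynomial.natDegree_C_mul_le _ _).trans ih1.le
      · have : (2 : Polynomial k) * Polynomial.X = Polynomial.C 2 * Polynomial.X := by
          rw [map_ofNat]
        rw [this]
        exact (Polynomial.natDegree_C_mul_le _ _).trans (Polynomial.natDegree_X_le.trans (by omega))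
    have hsum : TT B (n + 1 + 1) = Polynomial.C B * Polynomial.X * TT B (n + 1) +
        (2 * TT B (n + 1) + 2 * Polynomial.X - TT B n) := by
      rw [TT]; ring
    have hlt : (2 * TT B (n + 1) + 2 * Polynomial.X - TT B n).natDegree <
        (Polynomial.C B * Polynomial.X * TT B (n + 1)).natDegree := by omega
    constructor
    · rw [hsum, Polynomial.natDegree_add_eq_left_of_natDegree_lt hlt, hmain]
    · rw [hsum, Polynomial.leadingCoeff_add_of_degree_lt' (Polynomial.degree_lt_degree hlt),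
        Polynomial.leadingCoeff_mul, Polynomial.leadingCoeff_mul, Polynomial.leadingCoeff_C,
        Polynomial.leadingCoeff_X, ih2]
      ring

lemma TT_eval_zero (B : k) (n : ℕ) : (TT B n).eval 0 = 0 ∧ (TT B (n + 1)).eval 0 = 0 := by
  induction n with
  | zero => simp [TT]
  | succ n ih =>
    refine ⟨ih.2, ?_⟩
    rw [TT]
    simp [ih.1, ih.2]

/-- the polynomial whose nonzero roots are the `w` of the `(2m+1)`-torsion -/
lemma card_roots_le {B : k} (hB : B ≠ 0) (m : ℕ) [DecidableEq k] :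
    TT B (m + 1) - TT B m ≠ 0 ∧ ((TT B (m + 1) - TT B m).roots.toFinset.erase 0).card ≤ m := by
  obtain ⟨⟨h1, h2⟩, h3⟩ := TT_degree hB m
  have hdeg : (TT B (m + 1) - TT B m).natDegree = m + 1 := by
    rw [Polynomial.natDegree_sub_eq_left_of_natDegree_lt (by omega), h1]
  have hne : TT B (m + 1) - TT B m ≠ 0 := by
    intro h0; rw [h0] at hdeg; simp at hdeg
  refine ⟨hne, ?_⟩
  have hroot : (0 : k) ∈ (TT B (m + 1) - TT B m).roots.toFinset := by
    rw [Multiset.mem_toFinset, Polynomial.mem_roots hne, Polynomial.IsRoot.def,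
      Polynomial.eval_sub, (TT_eval_zero B m).1, (TT_eval_zero B m).2, sub_zero]
  rw [Finset.card_erase_of_mem hroot]
  have h4 : (TT B (m + 1) - TT B m).roots.toFinset.card ≤ m + 1 :=
    (Multiset.toFinset_card_le _).trans ((Polynomial.card_roots' _).trans hdeg.le)
  omega

lemma inE1_of_wr (h : NodeData v W e t β) (hπ : RedMap v π) {P : W.Point} (hP : P ∈ h.E0)
    (h0 : wr π e P = 0) : P ∈ E1 v h.isInt := by
  have hw := ww_le_one h hP
  rw [wr_of_le hw, hπ.ker] at h0
  have h0' : v (ww e P) < 1 := h0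
  by_cases hP0 : P = 0
  · rw [hP0]; exact zero_mem _
  rw [mem_E1_iff' h.isInt hP0]
  obtain ⟨x, y, hxy, rfl⟩ := exists_eq_some hP0
  simp only [ww, EC.xZ_some, EC.xX_some, mul_one, one_div, map_inv₀] at h0'
  have h1 : 1 < v (x - e) := by
    have hpos : 0 < v (x - e) := by
      have := X_ne_zero h hP
      simp only [EC.xZ_some, EC.xX_some, mul_one] at this
      exact lt_of_le_of_ne zero_le (Ne.symm (v.ne_zero_iff.mpr this))
    exact (inv_lt_one₀ hpos).mp h0'
  rw [xc_some]
  by_contra hcon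
  rw [not_lt] at hcon
  exact absurd h1 (not_lt.mpr ((v.map_sub _ _).trans (max_le hcon h.e_le)))

/-- **At most `n` points of `E₀` are killed by `n`** (`n` odd, prime to the residue
characteristic). -/
theorem card_E0_le (h : NodeData v W e t β) (hπ : RedMap v π) {n : ℕ} (hn : Odd n)
    (hvn : v (n : K) = 1) (G : Finset W.Point) (hG : ∀ P ∈ G, P ∈ h.E0 ∧ n • P = 0 ∧ P ≠ 0) :
    G.card + 1 ≤ n := by
  classical
  obtain ⟨m, rfl⟩ := hn
  have hB : v (W.b₂ + 12 * e) ≤ 1 := h.unit.le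
  set B : k := π ⟨W.b₂ + 12 * e, hB⟩ with hBdef
  have hB0 : B ≠ 0 := by
    intro h0
    rw [hBdef, hπ.ker] at h0
    exact absurd h.unit h0.ne
  obtain ⟨hne, hcard⟩ := card_roots_le hB0 m
  have hmaps : ∀ P ∈ G, wr π e P ∈ ((TT B (m + 1) - TT B m).roots.toFinset.erase 0) := by
    intro P hP
    obtain ⟨h1, h2, h3⟩ := hG P hP
    rw [Finset.mem_erase, Multiset.mem_toFinset, Polynomial.mem_roots hne, Polynomial.IsRoot.def,
      Polynomial.eval_sub]
    constructor
    · intro h0
      have := inE1_of_wr h hπ h1 h0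
      exact h3 (h.isInt.eq_zero_of_inE1 ((mem_E1_iff h.isInt).mp this) hvn h2)
    · have h4 := wr_nsmul h hπ h1 hB m
      rw [← h4.1, ← h4.2]
      have h5 : (m + 1) • P = -(m • P) := by
        rw [eq_neg_iff_add_eq_zero, ← add_nsmul]
        rw [← h2]; congr 1; ring
      rw [h5, wr_neg, sub_self]
  have hfib : ∀ b ∈ ((TT B (m + 1) - TT B m).roots.toFinset.erase 0),
      (G.filter (fun P => wr π e P = b)).card ≤ 2 := by
    intro b _
    by_cases hex : ∃ P ∈ G, wr π e P = b
    · obtain ⟨P, hP, hPb⟩ := hex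
      obtain ⟨h1, h2, h3⟩ := hG P hP
      have hsub : G.filter (fun P => wr π e P = b) ⊆ {P, -P} := by
        intro Q hQ
        rw [Finset.mem_filter] at hQ
        obtain ⟨h1', h2', h3'⟩ := hG Q hQ.1
        have h4 := (wr_add_sub h hπ h1' h1 hB).2
        rw [hQ.2, hPb, sub_self, zero_pow two_ne_zero] at h4
        rw [Finset.mem_insert, Finset.mem_singleton]
        have hkill : ∀ R : W.Point, R ∈ h.E0 → (2 * m + 1) • R = 0 → wr π e R = 0 → R = 0 := by
          intro R hR hnR hw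
          exact h.isInt.eq_zero_of_inE1 ((mem_E1_iff h.isInt).mp (inE1_of_wr h hπ hR hw)) hvn hnR
        rcases mul_eq_zero.mp h4 with h5 | h5
        · right
          have := hkill _ (add_mem h1' h1) (by rw [nsmul_add, h2, h2', add_zero]) h5
          exact eq_neg_of_add_eq_zero_left this
        · left
          have := hkill _ (sub_mem h1' h1) (by rw [nsmul_sub, h2, h2', sub_zero]) h5
          exact sub_eq_zero.mp this
      exact (Finset.card_le_card hsub).trans Finset.card_le_two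
    · have : G.filter (fun P => wr π e P = b) = ∅ := by
        rw [Finset.filter_eq_empty_iff]
        intro P hP hPb
        exact hex ⟨P, hP, hPb⟩
      rw [this]; simp
  have h6 := Finset.card_le_mul_card_image_of_maps_to hmaps 2 hfib
  omega

end Node

end Fermat.Agent.MazX
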