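import Fermat.Agent.MazX.Local2
import Fermat.Agent.WP.Jc

set_option autoImplicit false

/-!
# Valuations of `B` and `β` of the quotient by a subgroup of odd order prime to `ℓ`
-/

namespace Fermat.Agent.MazX

open WeierstrassCurve WeierstrassCurve.Affine WeierstrassCurve.Affine.Point
open Fermat.Agent.EC (IsInt InE1 xX xZ TrivMod NS comp nrm IsKummer F0 F1 F2)
open Fermat.Agent.ECP
open Fermat.Agent.WP (Xr B0 be0 BC beC jC)

section Node

variable {K Γ₀ : Type*} [Field K] [CharZero K] [LinearOrderedCommGroupWithZero Γ₀]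
  {v : Valuation K Γ₀} {W : WeierstrassCurve.Affine K} {t β : K} [DecidableEq K]
  {T : W.Point}

omit [DecidableEq K] in
lemma be0_eq (h : NodeData v W (xc T) t β) : be0 T = β := by
  have h4 := h.h4
  rw [be0]
  linear_combination h4 / 2

omit [DecidableEq K] [CharZero K] in
lemma val_B0 (h : NodeData v W (xc T) t β) : v (B0 T) = 1 := h.unit

/-- the summand of `BC` outside `E₀` is small -/
lemma val_summand_of_not_mem (h : NodeData v W (xc T) t β) {m : ℕ} (hm : Odd m) {c : W.Point}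
    (hmc : m • c = 0) (hc : c ∉ h.E0) : v (be0 T / Xr T c - Xr T c) < 1 := by
  obtain ⟨h1, h2, h3⟩ := cmp_of_not_mem h hm hmc hc
  refine (v.map_sub _ _).trans_lt (max_lt ?_ h3)
  rw [be0_eq h, map_div₀]
  exact (div_lt_one₀ (lt_of_le_of_lt zero_le h2)).mpr h2

lemma val_summand_of_mem (h : NodeData v W (xc T) t β) {m : ℕ} (hvm : v (m : K) = 1)
    {c : W.Point} (hmc : m • c = 0) (hc0 : c ≠ 0) (hc : c ∈ h.E0) :
    v ((be0 T / Xr T c - Xr T c) - (- Xr T c)) < 1 := by
  have h1 : v (Xr T c) = 1 := val_of_mem_E0 h hc0 hc (xc_le_one_of_torsion h.isInt hvm hmc hc0)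
  have e : (be0 T / Xr T c - Xr T c) - (- Xr T c) = be0 T / Xr T c := by ring
  rw [e, be0_eq h, map_div₀, h1, div_one]
  exact h.beta_lt

open Classical in
/-- `BC` modulo the maximal ideal -/
lemma val_BC_sub (h : NodeData v W (xc T) t β) {m : ℕ} (hm : Odd m) (hvm : v (m : K) = 1)
    (D : Finset W.Point) (hD : ∀ c ∈ D, m • c = 0 ∧ c ≠ 0) :
    v (BC T D - (B0 T + 12 * ∑ c ∈ D.filter (· ∈ h.E0), (- Xr T c))) < 1 := by
  have e : BC T D - (B0 T + 12 * ∑ c ∈ D.filter (· ∈ h.E0), (- Xr T c)) =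
      12 * ∑ c ∈ D, ((be0 T / Xr T c - Xr T c) - (if c ∈ h.E0 then - Xr T c else 0)) := by
    rw [Finset.sum_filter, BC, add_sub_add_left_eq_sub, ← mul_sub, ← Finset.sum_sub_distrib]
  rw [e, map_mul]
  have h12 : v (12 : K) ≤ 1 := by exact_mod_cast EC.val_natCast_le_one v 12
  refine lt_of_le_of_lt (mul_le_of_le_one_left' h12) ?_
  refine v.map_sum_lt one_ne_zero ?_
  intro c hc
  obtain ⟨h1, h2⟩ := hD c hc
  split_ifs with hcE
  · exact val_summand_of_mem h hvm h1 h2 hcE
  · rw [sub_zero]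
    exact val_summand_of_not_mem h hm h1 hcE

variable {k : Type*} [Field k] {π : v.integer →+* k}

open Classical in
/-- **`B` of the quotient is a unit.** -/
theorem val_BC (h : NodeData v W (xc T) t β) (hπ : RedMap v π) {C : AddSubgroup W.Point}
    {Cf : Finset W.Point} (hCf : ∀ P, P ∈ Cf ↔ P ∈ C) {m : ℕ} (hm : Odd m)
    (hvm : v (m : K) = 1) (hmC : ∀ P ∈ C, m • P = 0)
    (hdiv : ∀ n : ℕ, n ∣ Cf.card → Odd n ∧ v (n : K) = 1)
    (hfull : ∀ n : ℕ, Odd n → ∃ Ef : Finset W.Point, (∀ P, P ∈ Ef ↔ n • P = 0) ∧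
      BC T (Ef.erase 0) = (n : K) ^ 2 * B0 T) :
    v (BC T (Cf.erase 0)) = 1 := by
  -- the order of `C ∩ E₀`
  set C0 : AddSubgroup W.Point := C ⊓ h.E0 with hC0
  set C0f : Finset W.Point := Cf.filter (· ∈ h.E0) with hC0f
  have hmem0 : ∀ P, P ∈ C0f ↔ P ∈ C0 := by
    intro P
    rw [hC0f, Finset.mem_filter, hCf, hC0, AddSubgroup.mem_inf]
  have hcard0 : Nat.card C0 = C0f.card := by
    have e : C0 ≃ C0f := Equiv.subtypeEquivRight (fun P => (hmem0 P).symm)
    rw [Nat.card_congr e, Nat.card_eq_fintype_card, Fintype.card_coe]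
  have hcardC : Nat.card C = Cf.card := by
    have e : C ≃ Cf := Equiv.subtypeEquivRight (fun P => (hCf P).symm)
    rw [Nat.card_congr e, Nat.card_eq_fintype_card, Fintype.card_coe]
  have hdvd : C0f.card ∣ Cf.card := by
    rw [← hcard0, ← hcardC]
    exact AddSubgroup.card_dvd_of_le inf_le_left
  obtain ⟨hodd, hval⟩ := hdiv _ hdvd
  obtain ⟨Ef, hEf, hBE⟩ := hfull _ hodd
  -- `C ∩ E₀ = E[n] ∩ E₀`
  have hkill : ∀ P ∈ C0f, C0f.card • P = 0 := by
    intro P hP
    rw [hmem0] at hP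
    have hfin : Finite C0 := Nat.finite_of_card_ne_zero (by
      rw [hcard0]; intro h0; rw [h0] at hodd; exact absurd hodd (by decide))
    have := card_nsmul_eq_zero' (G := C0) (x := ⟨P, hP⟩)
    rw [hcard0] at this
    exact congrArg Subtype.val this
  have hsub : C0f ⊆ Ef.filter (· ∈ h.E0) := by
    intro P hP
    rw [Finset.mem_filter, hEf]
    exact ⟨hkill P hP, (Finset.mem_filter.mp hP).2⟩
  have hle : (Ef.filter (· ∈ h.E0)).card ≤ C0f.card := by
    have h0 : (0 : W.Point) ∈ Ef.filter (· ∈ h.E0) := by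
      rw [Finset.mem_filter, hEf]; exact ⟨nsmul_zero _, zero_mem _⟩
    have := card_E0_le h hπ hodd hval ((Ef.filter (· ∈ h.E0)).erase 0) (by
      intro P hP
      rw [Finset.mem_erase, Finset.mem_filter, hEf] at hP
      exact ⟨hP.2.2, hP.2.1, hP.1⟩)
    rw [Finset.card_erase_of_mem h0] at this
    have h1 := Finset.card_pos.mpr ⟨_, h0⟩
    omega
  have heq : C0f = Ef.filter (· ∈ h.E0) := Finset.eq_of_subset_of_card_le hsub hle
  -- compare
  have hfe : ∀ S : Finset W.Point, (S.erase 0).filter (· ∈ h.E0) = (S.filter (· ∈ h.E0)).erase 0 := by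
    intro S
    ext P
    simp only [Finset.mem_filter, Finset.mem_erase]
    tauto
  have e1 := val_BC_sub h hm hvm (Cf.erase 0) (by
    intro c hc
    rw [Finset.mem_erase, hCf] at hc
    exact ⟨hmC c hc.2, hc.1⟩)
  have e2 := val_BC_sub h hodd hval (Ef.erase 0) (by
    intro c hc
    rw [Finset.mem_erase, hEf] at hc
    exact ⟨hc.2, hc.1⟩)
  rw [hfe, ← heq] at e2
  rw [hfe, ← hC0f] at e1
  set S := B0 T + 12 * ∑ c ∈ C0f.erase 0, (- Xr T c)
  have e3 : v (BC T (Ef.erase 0)) = 1 := by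
    rw [hBE, map_mul, map_pow, hval, one_pow, one_mul, val_B0 h]
  have e4 : v (BC T (Cf.erase 0) - BC T (Ef.erase 0)) < 1 := by
    have : BC T (Cf.erase 0) - BC T (Ef.erase 0) =
        (BC T (Cf.erase 0) - S) - (BC T (Ef.erase 0) - S) := by ring
    rw [this]
    exact (v.map_sub _ _).trans_lt (max_lt e1 e2)
  have e5 : BC T (Cf.erase 0) = BC T (Ef.erase 0) + (BC T (Cf.erase 0) - BC T (Ef.erase 0)) := by
    ring
  rw [e5, Valuation.map_add_eq_of_lt_left v (by rw [e3]; exact e4), e3]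

omit [DecidableEq K] [CharZero K] in
lemma card_erase_zero {Cf : Finset W.Point} [DecidableEq W.Point] (h0 : (0 : W.Point) ∈ Cf) :
    (Cf.erase 0).card + 1 = Cf.card := by
  rw [Finset.card_erase_of_mem h0]
  have := Finset.card_pos.mpr ⟨_, h0⟩
  omega

open Classical in
/-- `β` of a quotient inside `E₀`. -/
theorem val_beC_of_le (h : NodeData v W (xc T) t β) {C : AddSubgroup W.Point}
    {Cf : Finset W.Point} (hCf : ∀ P, P ∈ Cf ↔ P ∈ C) {m : ℕ}
    (hvm : v (m : K) = 1) (hmC : ∀ P ∈ C, m • P = 0) (hC : C ≤ h.E0) :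
    v (beC T (Cf.erase 0)) = v β ^ Cf.card := by
  have h1 : v (∏ c ∈ Cf.erase 0, Xr T c) = 1 := by
    rw [map_prod]
    refine Finset.prod_eq_one fun c hc => ?_
    rw [Finset.mem_erase, hCf] at hc
    exact val_of_mem_E0 h hc.1 (hC hc.2) (xc_le_one_of_torsion h.isInt hvm (hmC c hc.2) hc.1)
  rw [beC, be0_eq h, map_div₀, map_pow, map_pow, h1, one_pow, div_one,
    card_erase_zero ((hCf 0).mpr (zero_mem C))]

open Classical in
/-- `β` of a quotient not inside `E₀`. -/
theorem val_beC_of_not_le (h : NodeData v W (xc T) t β) {p : ℕ} (hp : p.Prime) (hp2 : p ≠ 2)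
    {C : AddSubgroup W.Point}
    {Cf : Finset W.Point} (hCf : ∀ P, P ∈ Cf ↔ P ∈ C) {m : ℕ} (hm : Odd m)
    (hvm : v (m : K) = 1) (hmC : ∀ P ∈ C, m • P = 0) {n0 : ℕ}
    (hn0 : (Cf.filter (· ∈ h.E0)).card = n0) (hcard : Cf.card = p * n0)
    (hpC : ∀ P ∈ C, p • P ∈ h.E0) :
    v (beC T (Cf.erase 0)) ^ p = v β ^ n0 := by
  have hβ0 := h.beta_pos
  have h0C : (0 : W.Point) ∈ Cf := (hCf 0).mpr (zero_mem C)
  obtain ⟨r, hr⟩ := hp.odd_of_ne_two hp2
  -- split the product
  set R := Cf.filter (· ∉ h.E0) with hR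
  have hRcard : R.card = 2 * r * n0 := by
    have := Finset.card_filter_add_card_filter_not (s := Cf) (p := (· ∈ h.E0))
    rw [hn0, hcard] at this
    have this' : n0 + R.card = p * n0 := this
    have h2 : p * n0 = 2 * r * n0 + n0 := by rw [hr]; ring
    omega
  have hprod : v (∏ c ∈ Cf.erase 0, Xr T c) = ∏ c ∈ R, ECP.cmp v W (xc T) β c := by
    rw [map_prod]
    have hsplit : Cf.erase 0 = R ∪ (Cf.filter (· ∈ h.E0)).erase 0 := by
      ext P
      simp only [hR, Finset.mem_erase, Finset.mem_union, Finset.mem_filter]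
      constructor
      · rintro ⟨h1, h2⟩
        by_cases h3 : P ∈ h.E0
        · right; exact ⟨h1, h2, h3⟩
        · left; exact ⟨h2, h3⟩
      · rintro (⟨h1, h2⟩ | ⟨h1, h2, h3⟩)
        · refine ⟨?_, h1⟩
          rintro rfl
          exact h2 (zero_mem _)
        · exact ⟨h1, h2⟩
    have hdisj : Disjoint R ((Cf.filter (· ∈ h.E0)).erase 0) := by
      rw [Finset.disjoint_left]
      intro P h1 h2
      rw [hR, Finset.mem_filter] at h1
      rw [Finset.mem_erase, Finset.mem_filter] at h2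
      exact h1.2 h2.2.2
    rw [hsplit, Finset.prod_union hdisj]
    have h1 : ∏ c ∈ (Cf.filter (· ∈ h.E0)).erase 0, v (Xr T c) = 1 := by
      refine Finset.prod_eq_one fun c hc => ?_
      rw [Finset.mem_erase, Finset.mem_filter, hCf] at hc
      exact val_of_mem_E0 h hc.1 hc.2.2
        (xc_le_one_of_torsion h.isInt hvm (hmC c hc.2.1) hc.1)
    rw [h1, mul_one]
    refine Finset.prod_congr rfl fun c hc => ?_
    rw [hR, Finset.mem_filter, hCf] at hc
    exact (cmp_of_not_mem h hm (hmC c hc.1) hc.2).1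
  -- the exponents
  have hex : ∀ c : W.Point, ∃ i : ℕ, c ∈ R → (1 ≤ i ∧ 2 * i < p ∧
      ECP.cmp v W (xc T) β c ^ p = v β ^ (2 * i)) := by
    intro c
    by_cases hc : c ∈ R
    · rw [hR, Finset.mem_filter, hCf] at hc
      obtain ⟨i, hi⟩ := exists_pow_cmp h hm hp.pos (hmC c hc.1) hc.2 (hpC c hc.1)
      exact ⟨i, fun _ => hi⟩
    · exact ⟨0, fun h => absurd h hc⟩
  choose i hi using hex
  have hmaps : ∀ c ∈ R, i c ∈ Finset.Icc 1 r := by
    intro c hc
    obtain ⟨h1, h2, -⟩ := hi c hc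
    rw [Finset.mem_Icc]
    exact ⟨h1, by omega⟩
  have hfib : ∀ j ∈ Finset.Icc 1 r, (R.filter (fun c => i c = j)).card ≤ 2 * n0 := by
    intro j _
    by_cases hex : ∃ c ∈ R, i c = j
    · obtain ⟨c, hc, hcj⟩ := hex
      have hc' := hc
      rw [hR, Finset.mem_filter, hCf] at hc'
      set E := Cf.filter (· ∈ h.E0) with hE
      have hsub : R.filter (fun c => i c = j) ⊆ E.image (fun x => x + c) ∪ E.image (fun x => x - c) := by
        intro d hd
        rw [Finset.mem_filter] at hd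
        have hd' := hd.1
        rw [hR, Finset.mem_filter, hCf] at hd'
        have hcmp : ECP.cmp v W (xc T) β d = ECP.cmp v W (xc T) β c := by
          have h1 := (hi c hc).2.2
          have h2 := (hi d hd.1).2.2
          rw [hd.2, ← hcj, ← h1] at h2
          exact (pow_left_inj₀ zero_le zero_le hp.ne_zero).mp h2
        rw [Finset.mem_union, Finset.mem_image, Finset.mem_image]
        rcases mem_of_cmp_eq h hcmp with h3 | h3
        · right
          refine ⟨d + c, ?_, by abel⟩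
          rw [hE, Finset.mem_filter, hCf]
          exact ⟨add_mem hd'.1 hc'.1, h3⟩
        · left
          refine ⟨d - c, ?_, by abel⟩
          rw [hE, Finset.mem_filter, hCf]
          exact ⟨sub_mem hd'.1 hc'.1, h3⟩
      refine (Finset.card_le_card hsub).trans ((Finset.card_union_le _ _).trans ?_)
      have h1 := Finset.card_image_le (s := E) (f := fun x => x + c)
      have h2 := Finset.card_image_le (s := E) (f := fun x => x - c)
      rw [hn0] at h1 h2
      omega
    · have : R.filter (fun c => i c = j) = ∅ := by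
        rw [Finset.filter_eq_empty_iff]
        intro c hc hcj
        exact hex ⟨c, hc, hcj⟩
      rw [this]; simp
  have hfib' : ∀ j ∈ Finset.Icc 1 r, (R.filter (fun c => i c = j)).card = 2 * n0 := by
    have h1 := Finset.card_eq_sum_card_fiberwise hmaps
    have h2 : ∑ j ∈ Finset.Icc 1 r, (R.filter (fun c => i c = j)).card =
        ∑ j ∈ Finset.Icc 1 r, 2 * n0 := by
      rw [← h1, hRcard, Finset.sum_const, Nat.card_Icc, smul_eq_mul]
      have : r + 1 - 1 = r := by omega
      rw [this]; ring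
    exact (Finset.sum_eq_sum_iff_of_le hfib).mp h2
  have hsum : ∑ c ∈ R, i c = n0 * (r * (r + 1)) := by
    rw [← Finset.sum_fiberwise_of_maps_to hmaps]
    have h1 : ∀ j ∈ Finset.Icc 1 r, ∑ c ∈ R.filter (fun c => i c = j), i c = 2 * n0 * j := by
      intro j hj
      rw [← hfib' j hj, ← smul_eq_mul, ← Finset.sum_const]
      exact Finset.sum_congr rfl fun c hc => (Finset.mem_filter.mp hc).2
    rw [Finset.sum_congr rfl h1, ← Finset.mul_sum]
    have h2 : (∑ j ∈ Finset.Icc 1 r, j) * 2 = r * (r + 1) := by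
      have h3 := Finset.sum_range_id_mul_two (r + 1)
      have h4 : ∑ j ∈ Finset.range (r + 1), j = ∑ j ∈ Finset.Icc 1 r, j := by
        rw [Finset.range_eq_Ico, Finset.sum_eq_sum_Ico_succ_bot (by omega)]
        simp only [zero_add]
        rfl
      rw [h4] at h3
      rw [h3]
      have : r + 1 - 1 = r := by omega
      rw [this]; ring
    calc 2 * n0 * ∑ j ∈ Finset.Icc 1 r, j = n0 * ((∑ j ∈ Finset.Icc 1 r, j) * 2) := by ring
      _ = _ := by rw [h2]
  -- conclusion
  have hP : (∏ c ∈ R, ECP.cmp v W (xc T) β c) ^ (2 * p) = v β ^ (4 * (n0 * (r * (r + 1)))) := by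
    rw [← hsum, ← Finset.prod_pow, Finset.mul_sum, ← Finset.prod_pow_eq_pow_sum]
    refine Finset.prod_congr rfl fun c hc => ?_
    have := (hi c hc).2.2
    rw [mul_comm, pow_mul, this, ← pow_mul]
    congr 1; ring
  have hval : v (beC T (Cf.erase 0)) ^ p * v β ^ (4 * (n0 * (r * (r + 1)))) =
      v β ^ (Cf.card * p) := by
    rw [beC, be0_eq h, map_div₀, map_pow, map_pow, hprod, card_erase_zero h0C, div_pow, ← pow_mul,
      ← pow_mul, hP, div_mul_cancel₀]
    exact pow_ne_zero _ hβ0.ne'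
  have hexp : Cf.card * p = n0 + 4 * (n0 * (r * (r + 1))) := by
    rw [hcard, hr]; ring
  rw [hexp, pow_add] at hval
  exact mul_right_cancel₀ (pow_ne_zero _ hβ0.ne') hval

end Node

end Fermat.Agent.MazX
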