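import Fermat.Agent.MazX.Local3
import Fermat.Agent.WP.Descend

set_option autoImplicit false

/-!
# Comparison of the `j`-invariants of consecutive quotients at a multiplicative place
-/

namespace Fermat.Agent.MazX

open WeierstrassCurve WeierstrassCurve.Affine WeierstrassCurve.Affine.Point
open Fermat.Agent.EC (IsInt InE1 xX xZ TrivMod NS comp nrm IsKummer F0 F1 F2)
open Fermat.Agent.ECP
open Fermat.Agent.WP (Xr B0 be0 BC beC jC)

section Val

variable {K Γ₀ : Type*} [Field K] [LinearOrderedCommGroupWithZero Γ₀] {v : Valuation K Γ₀}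

lemma val_j_aux {B b : K} (hB : v B = 1) (hb : v b < 1) :
    v ((B ^ 2 - 48 * b) ^ 3 / (b ^ 2 * (B ^ 2 - 64 * b))) = (v b ^ 2)⁻¹ := by
  have h48 : v (48 * b) < v (B ^ 2) := by
    have : v (48 : K) ≤ 1 := by exact_mod_cast EC.val_natCast_le_one v 48
    rw [map_mul, map_pow, hB, one_pow]
    exact lt_of_le_of_lt (mul_le_of_le_one_left' this) hb
  have h64 : v (64 * b) < v (B ^ 2) := by
    have : v (64 : K) ≤ 1 := by exact_mod_cast EC.val_natCast_le_one v 64
    rw [map_mul, map_pow, hB, one_pow]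
    exact lt_of_le_of_lt (mul_le_of_le_one_left' this) hb
  rw [map_div₀, map_mul, map_pow, map_pow, Valuation.map_sub_eq_of_lt_left v h48,
    Valuation.map_sub_eq_of_lt_left v h64, map_pow, hB]
  simp

end Val

section Curve

variable {K Γ₀ : Type*} [Field K] [CharZero K] [IsAlgClosed K] [Algebra ℚ K]
  [LinearOrderedCommGroupWithZero Γ₀]
  {v : Valuation K Γ₀} {W' : WeierstrassCurve ℚ} [W'.IsElliptic] {t β : K} [DecidableEq K]
  {T : (W'⁄K).Point}

include W' in
open Classical in
lemma exists_full (f : K →ₐ[ℚ] ℂ) (hT : T ≠ 0) (h2T : (2 : ℕ) • T = 0) (n : ℕ) (hn : Odd n) :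
    ∃ Ef : Finset (W'⁄K).Point, (∀ P, P ∈ Ef ↔ n • P = 0) ∧
      BC T (Ef.erase 0) = (n : K) ^ 2 * B0 T := by
  have hnpos : 0 < n := by
    rcases Nat.eq_zero_or_pos n with h | h
    · rw [h] at hn; exact absurd hn (by decide)
    · exact h
  have hcard := WP.card_torsion (W' := W') f hnpos
  have hfin : {P : (W'⁄K).Point | n • P = 0}.Finite := by
    have : Finite {P : (W'⁄K).Point // n • P = 0} :=
      Nat.finite_of_card_ne_zero (by rw [hcard]; positivity)
    exact this
  refine ⟨hfin.toFinset, fun P => by simp, ?_⟩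
  refine WP.BC_torsion' f hn (fun P => by simp) ?_ hT h2T
  have : hfin.toFinset.card = n ^ 2 := by
    rw [← hcard, ← Set.ncard_eq_toFinset_card _ hfin]
    rfl
  rw [this]
  exact hn.pow

variable {k : Type*} [Field k] {π : v.integer →+* k}

open Classical in
theorem val_jC (f : K →ₐ[ℚ] ℂ) (h : NodeData v (W'⁄K) (xc T) t β) (hπ : RedMap v π)
    (hT : T ≠ 0) (h2T : (2 : ℕ) • T = 0)
    {p : ℕ} (hp : p.Prime) (hp2 : p ≠ 2) (hvp : v (p : K) = 1) {C : AddSubgroup (W'⁄K).Point}
    {Cf : Finset (W'⁄K).Point} (hCf : ∀ P, P ∈ Cf ↔ P ∈ C) {n : ℕ} (hcard : Cf.card = p ^ n)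
    (hlt : v (beC T (Cf.erase 0)) < 1) :
    v (jC T (Cf.erase 0)) = (v (beC T (Cf.erase 0)) ^ 2)⁻¹ := by
  have hodd : Odd p := hp.odd_of_ne_two hp2
  have hcardC : Nat.card C = Cf.card := by
    have e : C ≃ Cf := Equiv.subtypeEquivRight (fun P => (hCf P).symm)
    rw [Nat.card_congr e, Nat.card_eq_fintype_card, Fintype.card_coe]
  have hkill : ∀ P ∈ C, p ^ n • P = 0 := by
    intro P hP
    have hfin : Finite C := Nat.finite_of_card_ne_zero (by
      rw [hcardC, hcard]; exact pow_ne_zero _ hp.ne_zero)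
    have := card_nsmul_eq_zero' (G := C) (x := ⟨P, hP⟩)
    rw [hcardC, hcard] at this
    exact congrArg Subtype.val this
  have hB : v (BC T (Cf.erase 0)) = 1 := by
    refine val_BC h hπ hCf (m := p ^ n) hodd.pow (by push_cast; rw [map_pow, hvp, one_pow]) hkill
      ?_ (exists_full f hT h2T)
    intro j hj
    rw [hcard, Nat.dvd_prime_pow hp] at hj
    obtain ⟨i, -, rfl⟩ := hj
    exact ⟨hodd.pow, by push_cast; rw [map_pow, hvp, one_pow]⟩
  rw [jC]
  exact val_j_aux hB hlt

open Classical in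
/-- **Comparison of consecutive quotients.** -/
theorem compare_jC (f : K →ₐ[ℚ] ℂ) (h : NodeData v (W'⁄K) (xc T) t β) (hπ : RedMap v π)
    (hT : T ≠ 0) (h2T : (2 : ℕ) • T = 0)
    {p : ℕ} (hp : p.Prime) (hp2 : p ≠ 2) (hvp : v (p : K) = 1)
    {C C' : AddSubgroup (W'⁄K).Point}
    {Cf Cf' : Finset (W'⁄K).Point} (hCf : ∀ P, P ∈ Cf ↔ P ∈ C) (hCf' : ∀ P, P ∈ Cf' ↔ P ∈ C')
    (hCC' : C ≤ C') {n : ℕ} (hcard : Cf.card = p ^ n) (hcard' : Cf'.card = p ^ (n + 1))
    (hC : C ≤ h.E0) :
    1 < v (jC T (Cf.erase 0)) ∧ 1 < v (jC T (Cf'.erase 0)) ∧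
    (C' ≤ h.E0 → v (jC T (Cf.erase 0)) < v (jC T (Cf'.erase 0))) ∧
    (¬ C' ≤ h.E0 → v (jC T (Cf'.erase 0)) < v (jC T (Cf.erase 0))) := by
  have hodd : Odd p := hp.odd_of_ne_two hp2
  have hβ0 := h.beta_pos
  have hβ1 := h.beta_lt
  have hkillgen : ∀ (D : AddSubgroup (W'⁄K).Point) (Df : Finset (W'⁄K).Point),
      (∀ P, P ∈ Df ↔ P ∈ D) → ∀ i, Df.card = p ^ i → ∀ P ∈ D, p ^ i • P = 0 := by
    intro D Df hDf i hi P hP
    have hcardD : Nat.card D = Df.card := by
      have e : D ≃ Df := Equiv.subtypeEquivRight (fun P => (hDf P).symm)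
      rw [Nat.card_congr e, Nat.card_eq_fintype_card, Fintype.card_coe]
    have hfin : Finite D := Nat.finite_of_card_ne_zero (by
      rw [hcardD, hi]; exact pow_ne_zero _ hp.ne_zero)
    have := card_nsmul_eq_zero' (G := D) (x := ⟨P, hP⟩)
    rw [hcardD, hi] at this
    exact congrArg Subtype.val this
  have hkill := hkillgen C Cf hCf n hcard
  have hkill' := hkillgen C' Cf' hCf' (n + 1) hcard'
  have hvpow : ∀ i : ℕ, v ((p ^ i : ℕ) : K) = 1 := fun i => by
    push_cast; rw [map_pow, hvp, one_pow]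
  have hppos : ∀ i : ℕ, 0 < p ^ i := fun i => pow_pos hp.pos i
  -- `β` of `C`
  have hb : v (beC T (Cf.erase 0)) = v β ^ (p ^ n) := by
    rw [val_beC_of_le h hCf (hvpow n) hkill hC, hcard]
  have hb1 : v (beC T (Cf.erase 0)) < 1 := by
    rw [hb]; exact pow_lt_one₀ zero_le hβ1 (hppos n).ne'
  have hj := val_jC f h hπ hT h2T hp hp2 hvp hCf hcard hb1
  have hone : ∀ {x : Γ₀}, 0 < x → x < 1 → 1 < (x ^ 2)⁻¹ := fun h0 h1 =>
    (one_lt_inv₀ (pow_pos h0 2)).mpr (pow_lt_one₀ zero_le h1 two_ne_zero)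
  have hbpos : 0 < v (beC T (Cf.erase 0)) := by rw [hb]; exact pow_pos hβ0 _
  by_cases hC' : C' ≤ h.E0
  · have hb' : v (beC T (Cf'.erase 0)) = v β ^ (p ^ (n + 1)) := by
      rw [val_beC_of_le h hCf' (hvpow (n + 1)) hkill' hC', hcard']
    have hb1' : v (beC T (Cf'.erase 0)) < 1 := by
      rw [hb']; exact pow_lt_one₀ zero_le hβ1 (hppos _).ne'
    have hbpos' : 0 < v (beC T (Cf'.erase 0)) := by rw [hb']; exact pow_pos hβ0 _
    have hj' := val_jC f h hπ hT h2T hp hp2 hvp hCf' hcard' hb1'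
    have hlt : v (beC T (Cf'.erase 0)) < v (beC T (Cf.erase 0)) := by
      rw [hb, hb']
      exact pow_lt_pow_right_of_lt_one₀ hβ0 hβ1 (Nat.pow_lt_pow_right hp.one_lt (by omega))
    refine ⟨by rw [hj]; exact hone hbpos hb1, by rw [hj']; exact hone hbpos' hb1', fun _ => ?_,
      fun h => absurd hC' h⟩
    rw [hj, hj']
    exact (inv_lt_inv₀ (pow_pos hbpos 2) (pow_pos hbpos' 2)).mpr
      (pow_lt_pow_left₀ hlt zero_le two_ne_zero)
  · -- `C' ∩ E₀ = C`
    have hfilt : Cf'.filter (· ∈ h.E0) = Cf := by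
      set D : AddSubgroup (W'⁄K).Point := C' ⊓ h.E0 with hD
      have hCD : C ≤ D := le_inf hCC' hC
      have hDf : ∀ P, P ∈ Cf'.filter (· ∈ h.E0) ↔ P ∈ D := by
        intro P
        rw [Finset.mem_filter, hCf', hD, AddSubgroup.mem_inf]
      have hcardD : Nat.card D = (Cf'.filter (· ∈ h.E0)).card := by
        have e : D ≃ Cf'.filter (· ∈ h.E0) := Equiv.subtypeEquivRight (fun P => (hDf P).symm)
        rw [Nat.card_congr e, Nat.card_eq_fintype_card, Fintype.card_coe]
      have hcardC : Nat.card C = p ^ n := by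
        have e : C ≃ Cf := Equiv.subtypeEquivRight (fun P => (hCf P).symm)
        rw [Nat.card_congr e, Nat.card_eq_fintype_card, Fintype.card_coe, hcard]
      have hcardC' : Nat.card C' = p ^ (n + 1) := by
        have e : C' ≃ Cf' := Equiv.subtypeEquivRight (fun P => (hCf' P).symm)
        rw [Nat.card_congr e, Nat.card_eq_fintype_card, Fintype.card_coe, hcard']
      have hdvd1 : Nat.card D ∣ p ^ (n + 1) := hcardC' ▸ AddSubgroup.card_dvd_of_le inf_le_left
      have hdvd2 : p ^ n ∣ Nat.card D := hcardC ▸ AddSubgroup.card_dvd_of_le hCD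
      obtain ⟨i, hi, hDi⟩ := (Nat.dvd_prime_pow hp).mp hdvd1
      have hni : n ≤ i := by
        rw [hDi] at hdvd2
        exact (Nat.pow_dvd_pow_iff_le_right hp.one_lt).mp hdvd2
      have hin : i ≠ n + 1 := by
        rintro rfl
        apply hC'
        have h1 : Cf'.filter (· ∈ h.E0) = Cf' :=
          Finset.eq_of_subset_of_card_le (Finset.filter_subset _ _)
            (by rw [← hcardD, hDi, hcard'])
        intro P hP
        have h2 : P ∈ Cf'.filter (· ∈ h.E0) := by rw [h1, hCf']; exact hP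
        exact (Finset.mem_filter.mp h2).2
      have hi' : i = n := by omega
      symm
      apply Finset.eq_of_subset_of_card_le
      · intro P hP
        rw [hDf]
        exact hCD ((hCf P).mp hP)
      · rw [← hcardD, hDi, hi', hcard]
    have hb' := val_beC_of_not_le h hp hp2 hCf' (m := p ^ (n + 1)) hodd.pow (hvpow (n + 1)) hkill'
      (n0 := p ^ n) (by rw [hfilt, hcard]) (by rw [hcard', pow_succ]; ring) (by
        intro P hP
        have hle : p • P ∈ C := by
          -- `C'/C` has order `p`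
          have h1 : Nat.card C' = p * Nat.card C := by
            have e : C ≃ Cf := Equiv.subtypeEquivRight (fun P => (hCf P).symm)
            have e' : C' ≃ Cf' := Equiv.subtypeEquivRight (fun P => (hCf' P).symm)
            rw [Nat.card_congr e, Nat.card_congr e', Nat.card_eq_fintype_card,
              Nat.card_eq_fintype_card, Fintype.card_coe, Fintype.card_coe, hcard, hcard',
              pow_succ]; ring
          have h2 : (C.addSubgroupOf C').index = p := by
            have h3 := AddSubgroup.card_mul_index (C.addSubgroupOf C')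
            have h4 : Nat.card (C.addSubgroupOf C') = Nat.card C :=
              Nat.card_congr (AddSubgroup.addSubgroupOfEquivOfLe hCC').toEquiv
            rw [h4, h1, mul_comm p] at h3
            have h5 : 0 < Nat.card C := by
              have e : C ≃ Cf := Equiv.subtypeEquivRight (fun P => (hCf P).symm)
              rw [Nat.card_congr e, Nat.card_eq_fintype_card, Fintype.card_coe, hcard]
              exact hppos n
            exact Nat.eq_of_mul_eq_mul_left h5 h3
          have h6 := AddSubgroup.nsmul_index_mem (C.addSubgroupOf C') (⟨P, hP⟩ : C')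
          rw [h2] at h6
          exact h6
        exact hC hle)
    rw [← hb] at hb'
    -- `x = v (beC C')` satisfies `x ^ p = y`
    set x := v (beC T (Cf'.erase 0)) with hx
    set y := v (beC T (Cf.erase 0)) with hy
    have hx0 : 0 < x := by
      rcases (zero_le : (0 : Γ₀) ≤ x).lt_or_eq with h0 | h0
      · exact h0
      · rw [← h0, zero_pow hp.ne_zero] at hb'
        exact absurd hbpos (by rw [← hb']; exact lt_irrefl _)
    have hx1 : x < 1 := by
      by_contra hcon
      rw [not_lt] at hcon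
      have := one_le_pow₀ hcon (n := p)
      rw [hb'] at this
      exact absurd hb1 (not_lt.mpr this)
    have hyx : y < x := by
      rw [← hb']
      have := pow_lt_pow_right_of_lt_one₀ hx0 hx1 (m := 1) (n := p) hp.one_lt
      rwa [pow_one] at this
    have hj' := val_jC f h hπ hT h2T hp hp2 hvp hCf' hcard' hx1
    rw [← hx] at hj'
    refine ⟨by rw [hj]; exact hone hbpos hb1, by rw [hj']; exact hone hx0 hx1,
      fun h => absurd h hC', fun _ => ?_⟩
    rw [hj, hj']
    exact (inv_lt_inv₀ (pow_pos hx0 2) (pow_pos hbpos 2)).mpr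
      (pow_lt_pow_left₀ hyx zero_le two_ne_zero)

end Curve

end Fermat.Agent.MazX
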