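import Fermat.Agent.MazX.Local4
import Fermat.Agent.ECP.FreyLocal
import Fermat.Prelude.Def_EllipticCurve_ZeroComponentAt
import Mathlib.Algebra.CubicDiscriminant

set_option autoImplicit false

/-!
# Existence of node data at a multiplicative place, comparison with `InZeroComponentAt`
-/

namespace Fermat.Agent.MazX

open WeierstrassCurve WeierstrassCurve.Affine WeierstrassCurve.Affine.Point
open Fermat.Agent.EC (IsInt InE1 xX xZ TrivMod NS comp nrm IsKummer F0 F1 F2)
open Fermat.Agent.ECP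

section Abs

variable {K Γ₀ : Type*} [Field K] [CharZero K] [LinearOrderedCommGroupWithZero Γ₀]
  {v : Valuation K Γ₀}

/-- three numbers with `∑ βᵢ βⱼ = 0` -/
lemma exists_small {c b₁ b₂ b₃ D : K} (hc : v c = 1) (hD : v D < 1)
    (h₁ : 16 * b₁ ^ 3 - c * b₁ ^ 2 + D = 0) (h₂ : 16 * b₂ ^ 3 - c * b₂ ^ 2 + D = 0)
    (h₃ : 16 * b₃ ^ 3 - c * b₃ ^ 2 + D = 0)
    (hs : 16 * (b₁ + b₂ + b₃) = c) (hp : b₁ * b₂ + b₁ * b₃ + b₂ * b₃ = 0) :
    v b₁ < 1 ∨ v b₂ < 1 ∨ v b₃ < 1 := by
  by_contra hcon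
  push Not at hcon
  obtain ⟨k₁, k₂, k₃⟩ := hcon
  have key : ∀ b : K, 1 ≤ v b → 16 * b ^ 3 - c * b ^ 2 + D = 0 → v (16 * b - c) < 1 := by
    intro b hb h
    by_contra hh
    rw [not_lt] at hh
    have h1 : (16 * b - c) * b ^ 2 = -D := by linear_combination h
    have h2 : v ((16 * b - c) * b ^ 2) = v D := by rw [h1, Valuation.map_neg]
    rw [map_mul, map_pow] at h2
    have h3 : 1 ≤ v (16 * b - c) * v b ^ 2 := by
      calc (1 : Γ₀) = 1 * 1 := (mul_one 1).symm
        _ ≤ _ := mul_le_mul' hh (one_le_pow₀ hb)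
    rw [h2] at h3
    exact absurd hD (not_lt.mpr h3)
  have e1 := key _ k₁ h₁
  have e2 := key _ k₂ h₂
  have e3 := key _ k₃ h₃
  -- `|2| < 1`
  have h2 : v (2 : K) < 1 := by
    have h4 : (2 : K) * c = -((16 * b₁ - c) + (16 * b₂ - c) + (16 * b₃ - c)) := by
      linear_combination hs
    have h5 : v (2 * c) < 1 := by
      rw [h4, Valuation.map_neg]
      exact Valuation.map_add_lt v (Valuation.map_add_lt v e1 e2) e3
    rwa [map_mul, hc, mul_one] at h5
  have h3 : v (3 : K) < 1 := by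
    have hle : ∀ b : K, v (16 * b - c) < 1 → v (16 * b) ≤ 1 := by
      intro b hb
      have : (16 * b : K) = (16 * b - c) + c := by ring
      rw [this]
      exact (Valuation.map_add v _ _).trans (max_le hb.le hc.le)
    have h4 : (3 : K) * c * c = -((16 * b₁ - c) * (16 * b₂) + c * (16 * b₂ - c) +
        ((16 * b₁ - c) * (16 * b₃) + c * (16 * b₃ - c)) +
        ((16 * b₂ - c) * (16 * b₃) + c * (16 * b₃ - c))) := by
      linear_combination 256 * hp
    have hm : ∀ x y : K, v x < 1 → v y ≤ 1 → v (x * y) < 1 := by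
      intro x y hx hy
      rw [map_mul]
      exact lt_of_le_of_lt (mul_le_of_le_one_right' hy) hx
    have hm' : ∀ x y : K, v x ≤ 1 → v y < 1 → v (x * y) < 1 := by
      intro x y hx hy
      rw [mul_comm]; exact hm y x hy hx
    have h5 : v (3 * c * c) < 1 := by
      rw [h4, Valuation.map_neg]
      exact Valuation.map_add_lt v (Valuation.map_add_lt v
        (Valuation.map_add_lt v (hm _ _ e1 (hle _ e2)) (hm' _ _ hc.le e2))
        (Valuation.map_add_lt v (hm _ _ e1 (hle _ e3)) (hm' _ _ hc.le e3)))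
        (Valuation.map_add_lt v (hm _ _ e2 (hle _ e3)) (hm' _ _ hc.le e3))
    rwa [map_mul, map_mul, hc, mul_one, mul_one] at h5
  have h6 : v (1 : K) < 1 := by
    have : (1 : K) = 3 - 2 := by norm_num
    rw [this]
    exact Valuation.map_sub_lt v h3 h2
  rw [Valuation.map_one] at h6
  exact lt_irrefl _ h6

variable {W : WeierstrassCurve.Affine K}

/-- A root of the 2-division polynomial with small `β` gives node data. -/
lemma node_of_root (hW : IsInt v W) (hc : v W.c₄ = 1) (hΔ0 : W.Δ ≠ 0) {e β : K}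
    (he : 4 * e ^ 3 + W.b₂ * e ^ 2 + 2 * W.b₄ * e + W.b₆ = 0)
    (hβ : 2 * β = W.b₄ + W.b₂ * e + 6 * e ^ 2) (hβ1 : v β < 1) :
    ∃ t, NodeData v W e t β := by
  have h2 : (2 : K) ≠ 0 := two_ne_zero
  -- relations
  have hc4 : W.c₄ = (W.b₂ + 12 * e) ^ 2 - 48 * β := by
    simp only [WeierstrassCurve.c₄]
    linear_combination 24 * hβ
  have hΔ : W.Δ = β ^ 2 * ((W.b₂ + 12 * e) ^ 2 - 64 * β) := by
    have h8 := W.b_relation
    have hβ' : β = (W.b₄ + W.b₂ * e + 6 * e ^ 2) / 2 := by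
      rw [eq_div_iff h2]; linear_combination hβ
    have hb6 : W.b₆ = -(4 * e ^ 3 + W.b₂ * e ^ 2 + 2 * W.b₄ * e) := by linear_combination he
    have hb8 : W.b₈ = (W.b₂ * W.b₆ - W.b₄ ^ 2) / 4 := by
      rw [eq_div_iff (by norm_num)]; linear_combination h8
    simp only [WeierstrassCurve.Δ]
    rw [hb8, hb6, hβ']
    ring
  have hle48 : v (48 * β) < 1 := by
    rw [map_mul]
    exact lt_of_le_of_lt (mul_le_of_le_one_left' (by exact_mod_cast EC.val_natCast_le_one v 48)) hβ1
  have hB : v (W.b₂ + 12 * e) = 1 := by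
    have h3 : (W.b₂ + 12 * e) ^ 2 = W.c₄ + 48 * β := by rw [hc4]; ring
    have h4 : v ((W.b₂ + 12 * e) ^ 2) = 1 := by
      rw [h3, Valuation.map_add_eq_of_lt_left v (by rw [hc]; exact hle48), hc]
    rw [map_pow] at h4
    apply le_antisymm
    · by_contra hh
      rw [not_le] at hh
      exact absurd (one_lt_pow₀ hh two_ne_zero) (by rw [h4]; exact lt_irrefl _)
    · by_contra hh
      rw [not_le] at hh
      exact absurd (pow_lt_one₀ zero_le hh two_ne_zero) (by rw [h4]; exact lt_irrefl _)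
  have hβ0 : β ≠ 0 := by
    rintro rfl
    apply hΔ0
    rw [hΔ]; ring
  -- `e` is integral
  have hint : ∀ n : ℕ, v (n : K) ≤ 1 := EC.val_natCast_le_one v
  have heint : v e ≤ 1 := by
    by_contra hcon
    rw [not_le] at hcon
    have e0 : (0 : Γ₀) < v e := lt_trans zero_lt_one hcon
    have f1 : W.b₂ * e ^ 2 = -(4 * (W.b₄ + β) * e + 3 * W.b₆) := by
      linear_combination 3 * he + 2 * e * hβ
    have g4 : v (4 * (W.b₄ + β)) ≤ 1 := by
      rw [map_mul]
      exact mul_le_one' (by exact_mod_cast hint 4)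
        ((Valuation.map_add v _ _).trans (max_le hW.b₄ hβ1.le))
    have g6 : v (3 * W.b₆) ≤ 1 := by
      rw [map_mul]; exact mul_le_one' (by exact_mod_cast hint 3) hW.b₆
    have g1 : v (W.b₂ * e ^ 2) ≤ v e := by
      rw [f1, Valuation.map_neg]
      refine (Valuation.map_add v _ _).trans (max_le ?_ (g6.trans hcon.le))
      rw [map_mul]
      exact mul_le_of_le_one_left' g4
    have g2 : v (W.b₂ * e) ≤ 1 := by
      rw [pow_two, ← mul_assoc, map_mul] at g1
      exact (mul_le_iff_le_one_left e0).mp g1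
    have g3 : v W.b₂ < 1 := by
      rw [map_mul] at g2
      by_contra hh
      rw [not_lt] at hh
      have : (1 : Γ₀) < v W.b₂ * v e := by
        calc (1 : Γ₀) < v e := hcon
          _ = 1 * v e := (one_mul _).symm
          _ ≤ _ := mul_le_mul_left hh _
      exact absurd g2 (not_le.mpr this)
    have g5 : v (6 * e ^ 2) ≤ 1 := by
      have : (6 * e ^ 2 : K) = 2 * β - W.b₄ - W.b₂ * e := by linear_combination -hβ
      rw [this]
      refine (Valuation.map_sub v _ _).trans (max_le ((Valuation.map_sub v _ _).trans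
        (max_le ?_ hW.b₄)) g2)
      rw [map_mul]
      exact mul_le_one' (by exact_mod_cast hint 2) hβ1.le
    have g7 : v (12 * e) = 1 := by
      have : (12 * e : K) = (W.b₂ + 12 * e) - W.b₂ := by ring
      rw [this, Valuation.map_sub_eq_of_lt_left v (by rw [hB]; exact g3), hB]
    -- `|12 e|² = 1` and `|6 e²| ≤ 1` give `|24| ≥ 1`
    have g8 : v (24 : K) = 1 := by
      apply le_antisymm (by exact_mod_cast hint 24)
      have h24 : v ((12 * e) * (12 * e)) = v 24 * v (6 * e ^ 2) := by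
        rw [← map_mul]; congr 1; ring
      rw [map_mul, g7, mul_one] at h24
      rw [h24]
      exact mul_le_of_le_one_right' g5
    have g9 : v (12 : K) = 1 := by
      apply le_antisymm (by exact_mod_cast hint 12)
      have : (24 : K) = 12 * 2 := by norm_num
      rw [this, map_mul] at g8
      rw [← g8]
      exact mul_le_of_le_one_right' (by exact_mod_cast hint 2)
    rw [map_mul, g9, one_mul] at g7
    exact absurd hcon (by rw [g7]; exact lt_irrefl _)
  have hβ0' : 0 < v β := by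
    rw [Valuation.pos_iff]
    exact hβ0
  refine ⟨-(W.a₁ * e + W.a₃) / 2, hW, heint, ?_, ?_, ?_, hβ0', hβ1, hB⟩
  · have h := he
    simp only [WeierstrassCurve.b₂, WeierstrassCurve.b₄, WeierstrassCurve.b₆] at h
    field_simp
    linear_combination -h
  · field_simp
    ring
  · have h := hβ
    simp only [WeierstrassCurve.b₂, WeierstrassCurve.b₄] at h
    field_simp
    linear_combination h

variable [IsAlgClosed K]

theorem exists_nodeData (hW : IsInt v W) (hc : v W.c₄ = 1) (hΔ0 : W.Δ ≠ 0) (hΔ1 : v W.Δ < 1) :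
    ∃ e t β, NodeData v W e t β := by
  set P : Cubic K := ⟨4, W.b₂, 2 * W.b₄, W.b₆⟩ with hPdef
  have ha : P.a ≠ 0 := by rw [hPdef]; norm_num
  obtain ⟨x, y, z, h3⟩ := (Cubic.splits_iff_roots_eq_three (φ := RingHom.id K) ha).mp
    (IsAlgClosed.splits _)
  have hb := Cubic.b_eq_three_roots ha h3
  have hcc := Cubic.c_eq_three_roots ha h3
  have hd := Cubic.d_eq_three_roots ha h3
  simp only [hPdef, RingHom.id_apply] at hb hcc hd
  have hb4 : W.b₄ = 2 * (x * y + x * z + y * z) := by linear_combination hcc / 2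
  -- the three values of `β`
  have hroot : ∀ e, (e = x ∨ e = y ∨ e = z) →
      4 * e ^ 3 + W.b₂ * e ^ 2 + 2 * W.b₄ * e + W.b₆ = 0 := by
    intro e he
    rw [hb, hb4, hd]
    rcases he with rfl | rfl | rfl <;> ring
  have hc4 : W.c₄ = 16 * ((x - y) * (x - z) + (y - x) * (y - z) + (z - x) * (z - y)) := by
    simp only [WeierstrassCurve.c₄]
    rw [hb, hb4]; ring
  have hΔ : W.Δ = 16 * ((x - y) * (x - z) * (y - z)) ^ 2 := by
    have hb8 : W.b₈ = (W.b₂ * W.b₆ - W.b₄ ^ 2) / 4 := by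
      rw [eq_div_iff (by norm_num)]; linear_combination W.b_relation
    simp only [WeierstrassCurve.Δ]
    rw [hb8, hb, hb4, hd]
    ring
  have hcases := exists_small (v := v) (c := W.c₄) (b₁ := (x - y) * (x - z))
    (b₂ := (y - x) * (y - z)) (b₃ := (z - x) * (z - y)) (D := W.Δ) hc hΔ1
    (by rw [hc4, hΔ]; ring) (by rw [hc4, hΔ]; ring) (by rw [hc4, hΔ]; ring)
    (by rw [hc4]) (by ring)
  rcases hcases with h | h | h
  · obtain ⟨t, ht⟩ := node_of_root hW hc hΔ0 (hroot x (Or.inl rfl))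
      (β := (x - y) * (x - z)) (by rw [hb, hb4]; ring) h
    exact ⟨_, t, _, ht⟩
  · obtain ⟨t, ht⟩ := node_of_root hW hc hΔ0 (hroot y (Or.inr (Or.inl rfl)))
      (β := (y - x) * (y - z)) (by rw [hb, hb4]; ring) h
    exact ⟨_, t, _, ht⟩
  · obtain ⟨t, ht⟩ := node_of_root hW hc hΔ0 (hroot z (Or.inr (Or.inr rfl)))
      (β := (z - x) * (z - y)) (by rw [hb, hb4]; ring) h
    exact ⟨_, t, _, ht⟩

end Abs

end Fermat.Agent.MazX
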