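import Fermat.Agent.X0Places.Cosets
import Fermat.Agent.X0Places.PlaceOfVal

set_option autoImplicit false

/-!
# The place of the function field of `X₀(N)` attached to a point of the upper half plane
-/

noncomputable section

open UpperHalfPlane Function ModularCurve AlgebraicCurve WithZero

namespace Fermat.Agent.MazX

open Fermat.Agent.FunField Fermat.Agent.FunField.PlaceLemmas Fermat.Agent.X0Places
open Fermat.Agent.JInv (jInv)

theorem valHolo_lt_one {f : Holo} (hf : f ≠ 0) {τ : ℍ} (h : (f : ℍ → ℂ) τ = 0) :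
    valHolo τ f < 1 := by
  rw [valHolo_apply τ hf, ← exp_zero, exp_lt_exp]
  have h1 : ordH τ (f : ℍ → ℂ) ≠ 0 := (ordH_ne_zero_iff (mem_holo.1 f.2) τ).2 h
  have h2 : ordH τ (f : ℍ → ℂ) ≠ ⊤ := by
    intro h
    exact hf (Subtype.ext ((ordH_eq_top_iff (mem_holo.1 f.2) τ).1 h))
  have h3 : (ordH τ (f : ℍ → ℂ)).toNat ≠ 0 := by
    intro h
    rcases (ENat.toNat_eq_zero).1 h with h | h
    · exact h1 h
    · exact h2 h
  omega

variable {L : Type*} [Field L] [Algebra ℚ L] (ι : L →+* ℂ) (N : ℕ) [NeZero N]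
  [IsFF L (FF L N)]

theorem exists_place_tau (τ : ℍ) (a b : L) (ha : jInv τ = ι a)
    (hb : jInv (scaleH N (Nat.pos_of_ne_zero (NeZero.ne N)) τ) = ι b) :
    ∃ P : Place L (FF L N), 0 < P.ord (jF L N - algebraMap L (FF L N) a) ∧
      0 < P.ord (jNF L N - algebraMap L (FF L N) b) := by
  set w : Valuation (FF L N) ℤᵐ⁰ := (valMer τ).comap (toMer ι N) with hw
  have hL : ∀ c : L, w (algebraMap L (FF L N) c) ≤ 1 := by
    intro c
    rw [hw, Valuation.comap_apply, toMer_algebraMap, valMer_algebraMap]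
    exact valHolo_le_one _ _
  have key : ∀ (x : FF L N) (c : L) (f : Holo), toMer ι N x = algebraMap Holo Mer f →
      (∃ z, (f : ℍ → ℂ) z ≠ ι c) → (f : ℍ → ℂ) τ = ι c →
      w (x - algebraMap L (FF L N) c) < 1 ∧ x - algebraMap L (FF L N) c ≠ 0 := by
    intro x c f hx hf hfτ
    have hne : f - constHolo (ι c) ≠ 0 := by
      rintro h
      obtain ⟨z, hz⟩ := hf
      have h1 : (f : ℍ → ℂ) z - ι c = 0 := congrFun (congrArg Subtype.val h) z
      exact hz (sub_eq_zero.mp h1)
    have hm : toMer ι N (x - algebraMap L (FF L N) c) =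
        algebraMap Holo Mer (f - constHolo (ι c)) := by
      rw [map_sub, hx, toMer_algebraMap, map_sub]
    constructor
    · rw [hw, Valuation.comap_apply, hm, valMer_algebraMap]
      apply valHolo_lt_one hne
      show (f : ℍ → ℂ) τ - ι c = 0
      rw [hfτ, sub_self]
    · intro h0
      rw [h0, map_zero] at hm
      exact hne ((map_eq_zero_iff _ (IsFractionRing.injective Holo Mer)).mp hm.symm)
  have hnc : ∀ c : ℂ, ∃ z, jInv z ≠ c := by
    intro c
    obtain ⟨z, hz⟩ := Fermat.Agent.JInv.jInv_surjective (c + 1)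
    exact ⟨z, by rw [hz]; simp⟩
  have hpos : 0 < N := Nat.pos_of_ne_zero (NeZero.ne N)
  have k1 := key (jF L N) a jHolo (toMer_jF ι N) (hnc _) ha
  have k2 := key (jNF L N) b ⟨jd N hpos, mdiff_jd N _⟩ (toMer_jNF ι N) (by
    obtain ⟨z, hz⟩ := hnc (ι b)
    -- a point `z'` with `scaleH N z' = z`
    refine ⟨affH 1 N 0 one_pos hpos z, ?_⟩
    have h1 : scaleH N hpos (affH 1 N 0 one_pos hpos z) = z := by
      apply UpperHalfPlane.ext
      rw [coe_scaleH, coe_affH]
      have : (N : ℂ) ≠ 0 := by exact_mod_cast hpos.ne'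
      push_cast
      field_simp
      ring
    show jInv (scaleH N hpos _) ≠ _
    rw [h1]
    exact hz) hb
  have hne : ∃ x, 1 < w x := by
    refine ⟨(jF L N - algebraMap L (FF L N) a)⁻¹, ?_⟩
    rw [map_inv₀]
    exact (one_lt_inv₀ (zero_lt_iff.2 ((Valuation.ne_zero_iff _).2 k1.2))).2 k1.1
  obtain ⟨e, he, h⟩ := exists_ramification w hL hne
  refine ⟨placeOfVal w hL hne, ?_, ?_⟩
  · have h1 := h _ k1.2
    have h2 := k1.1
    rw [h1, ← exp_zero, exp_lt_exp] at h2
    by_contra hcon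
    rw [not_lt] at hcon
    have : (e : ℤ) * (placeOfVal w hL hne).ord (jF L N - algebraMap L (FF L N) a) ≤ 0 :=
      mul_nonpos_of_nonneg_of_nonpos (by positivity) hcon
    omega
  · have h1 := h _ k2.2
    have h2 := k2.1
    rw [h1, ← exp_zero, exp_lt_exp] at h2
    by_contra hcon
    rw [not_lt] at hcon
    have : (e : ℤ) * (placeOfVal w hL hne).ord (jNF L N - algebraMap L (FF L N) b) ≤ 0 :=
      mul_nonpos_of_nonneg_of_nonpos (by positivity) hcon
    omega

end Fermat.Agent.MazX
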