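import Fermat.Agent.MazX.Unique
import Fermat.Agent.MzCusp.Final
import Fermat.Agent.Cusps.GenusFinal

set_option autoImplicit false
set_option linter.unusedSectionVars false
set_option synthInstance.maxHeartbeats 400000

/-!
# The reduction of `X₀(p)` at a place over `ℓ ≠ p`: places and classes
-/

noncomputable section

open ModularCurve AlgebraicCurve

attribute [-instance] Fermat.Agent.X0Places.ffField Fermat.Agent.X0Places.ffAlgebra

namespace Fermat.Agent.MazX

open Fermat.Agent.FunField Fermat.Agent.FunField.PlaceLemmas IntermediateField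
open Fermat.Agent.Deuring Fermat.Agent.MzCusp Fermat.Agent.HeckeRed Fermat.Agent.Igusa

local notation "Qb" => AlgebraicClosure ℚ

section Along

variable {L : Type*} [Field L] [Algebra ℚ L] [IsAlgClosed L] {A : ValuationSubring L}
  {κ : Type*} [Field κ] [IsAlgClosed κ] {π : A →+* κ} [IsLocalHom π]
  {hπ : Function.Surjective π} {N : ℕ} [NeZero N] {hN : (N : κ) ≠ 0}
  {r : Place L (laurentBaseChange L (modularFunctionFieldFull N)) →
    Place κ (modularFunctionFieldFullC κ N)}

theorem isPlaceReductionAlong_of (hr : IsReduction (dat A π hπ N hN) r)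
    (hdeg : ∀ P, (r P).deg = P.deg) :
    IsPlaceReductionAlong A π N r := by
  refine ⟨hdeg, ?_⟩
  intro y hy hyk hne D hD Q
  set f : laurentBaseChange L (modularFunctionFieldFull N) := ⟨coeffMap A.subtype y, hy⟩ with hf
  have hmem : f ∈ (dat A π hπ N hN).O := by
    rw [mem_dat]
    exact emb_mem_gaussRing y
  have hres : (((dat A π hπ N hN).res ⟨f, hmem⟩ : modularFunctionFieldFullC κ N) :
      LaurentSeries κ) = coeffMap π y := by
    rw [dat_res]
    exact gaussRes_emb y
  have hres' : (dat A π hπ N hN).res ⟨f, hmem⟩ = (⟨coeffMap π y, hyk⟩ :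
      modularFunctionFieldFullC κ N) := Subtype.ext hres
  have hne' : (dat A π hπ N hN).res ⟨f, hmem⟩ ≠ 0 := by
    rw [hres']
    intro h
    exact hne (congrArg Subtype.val h)
  have := hr.div ⟨f, hmem⟩ hne' D hD Q
  rw [this, hres']

end Along

variable (p ℓ : ℕ) [hp : Fact p.Prime]

/-- Reduction of `X₀(p)` at a place over `ℓ`, on places and on classes. -/
structure RedX (hℓ : ℓ.Prime) (A : ValuationSubring Qb) where
  /-- the package -/
  pk : SpecPackage p ℓ hℓ A
  /-- places of the reduction -/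
  Y : Type
  /-- reduction of places -/
  r : Place Qb (modularFunctionFieldBar p) → Y
  diff : ∀ P Q, r P = r Q → pk.sp (diffClass p P Q) = 0
  zero : ∀ (P : Place Qb (modularFunctionFieldBar p)) (a b : Qb),
    0 < P.ord ((cD p).j - algebraMap Qb _ a) → 0 < P.ord ((cD p).jp - algebraMap Qb _ b) →
    1 < A.valuation a → A.valuation b < A.valuation a → r P = r (cZero p)
  inf : ∀ (P : Place Qb (modularFunctionFieldBar p)) (a b : Qb),
    0 < P.ord ((cD p).j - algebraMap Qb _ a) → 0 < P.ord ((cD p).jp - algebraMap Qb _ b) →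
    1 < A.valuation a → A.valuation a ≤ A.valuation b → r P = r (cInf p)
  uniq_zero : ∀ (P P' : Place Qb (modularFunctionFieldBar p)) (b : Qb),
    0 < P.ord ((cD p).jp - algebraMap Qb _ b) → 0 < P'.ord ((cD p).jp - algebraMap Qb _ b) →
    1 < A.valuation b → r P = r (cZero p) → r P' = r (cZero p) → P = P'
  uniq_inf : ∀ (P P' : Place Qb (modularFunctionFieldBar p)) (a : Qb),
    0 < P.ord ((cD p).j - algebraMap Qb _ a) → 0 < P'.ord ((cD p).j - algebraMap Qb _ a) →
    1 < A.valuation a → r P = r (cInf p) → r P' = r (cInf p) → P = P'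
  cusp : p ∉ ({2, 3, 5, 7, 13} : Finset ℕ) → pk.sp (cuspClass p) ≠ 0

variable {p ℓ}

theorem nonempty_redX_aux (hℓ : ℓ.Prime) (hℓN : ¬ ℓ ∣ p)
    (A : ValuationSubring (AlgebraicClosure ℚ)) (κ : Type) [Field κ] [IsAlgClosed κ]
    [i2 : CharP κ ℓ] [i3 : Fact ℓ.Prime] [PerfectRing κ ℓ] (π : A →+* κ) [IsLocalHom π]
    (hπ : Function.Surjective π)
    (hin : ∀ σ ∈ A.inertiaSubgroupIn ℚ, ∃ σA : A →+* A, (∀ a : A, σ a = σA a) ∧
      ∀ a : A, RingHom.id κ (π a) = π (σA a))
    (hfr : ∀ σ : AlgebraicClosure ℚ ≃ₐ[ℚ] AlgebraicClosure ℚ, A.IsFrobeniusAt σ ℓ →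
      ∃ σA : A →+* A, (∀ a : A, σ a = σA a) ∧
      ∀ a : A, frobenius κ ℓ (π a) = π (σA a))
    (hπ0 : ∀ x : A, A.valuation x < 1 → π x = 0) {g : ℤ}
    (hRR : RRLarge (AlgebraicClosure ℚ) (modularFunctionFieldBar p) g)
    (hRR₁ : RRLarge κ (modularFunctionFieldFullC κ p) g) :
    Nonempty (RedX p ℓ hℓ A) := by
  have hN : (p : κ) ≠ 0 := fun h => hℓN ((CharP.cast_eq_zero_iff _ ℓ p).mp h)
  obtain ⟨r, hr1, hr2⟩ := (dat A π hπ p hN).exists_reduction hRR hRR₁
  have hr : IsReduction (dat A π hπ p hN) r := ⟨hr1, hr2⟩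
  let g₁ := frobAut (modularFunctionFieldFullC κ p) (full_stable p) ℓ
  let pk : SpecPackage p ℓ hℓ A := {
    X := Pic0 (κ)
      (modularFunctionFieldFullC κ p)
    inst := inferInstance
    sp := spHom hr
    Fr := DistribSMul.toAddMonoidHom _ g₁
    Fr' := DistribSMul.toAddMonoidHom _ g₁⁻¹
    inv := fun y => inv_smul_smul g₁ y
    hecke := fun q hq x hx => by
      have i6 : Fact (q : ℕ).Prime := ⟨q.2⟩
      rw [heckeOperatorBar_apply]
      refine spHom_hecke_ne A π hπ p hN hr q ?_ x hx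
      intro h
      rw [CharP.cast_eq_zero_iff _ ℓ] at h
      rcases hℓ.dvd_mul.mp h with h1 | h1
      · exact hℓN h1
      · exact hq ((Nat.prime_dvd_prime_iff_eq hℓ q.2).mp h1).symm
    es := fun x => (congrArg (spHom hr) (heckeOperatorBar_apply p (⟨ℓ, hℓ⟩ : Nat.Primes) x)).trans
      (spHom_hecke_eq A π hπ p hN hr ℓ hℓN x)
    inertia := fun σ hσ x => by
      obtain ⟨σA, h1, h2⟩ := hin σ hσ
      have h3 := spHom_galois A π hπ p hN hr σ 1 σA (RingHom.id _) h1 h2
        (coe_one_smul _) x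
      rwa [one_smul] at h3
    frob := fun σ hσ x => by
      obtain ⟨σA, h1, h2⟩ := hfr σ hσ
      exact spHom_galois A π hπ p hN hr σ g₁ σA _ h1 h2
        (coe_frobAut_smul _ (full_stable p) ℓ) x
    tors := fun m hm x hx hsp => 
      spHom_torsion hr hRR hRR₁ (m := m) (fun h => hm ((CharP.cast_eq_zero_iff _ ℓ m).mp h))
        x hx hsp }
  let cK : CuspData κ p (modularFunctionFieldFullC κ p) := cuspData κ p hN _ rfl
  have hdeg : ∀ P, (r P).deg = P.deg := fun P => by rw [degk, degL]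
  have hra : IsPlaceReductionAlong A π p r := isPlaceReductionAlong_of hr hdeg
  have hcz : r (cZero p) = (cK).zero := (red_cusps hra (cD p) (cK)).2
  have hci : r (cInf p) = (cK).inf := (red_cusps hra (cD p) (cK)).1
  have hspd : ∀ P Q, pk.sp (diffClass p P Q) = Pic0.mk (spDiv r (diffDiv p P Q)) := fun P Q => rfl
  have hcoe : ∀ P Q, ((spDiv r (diffDiv p P Q) : Divisor.degZero (K := κ)
        (F := modularFunctionFieldFullC κ p)) :
      Divisor κ
        (modularFunctionFieldFullC κ p)) =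
      Finsupp.single (r P) 1 - Finsupp.single (r Q) 1 := by
    intro P Q
    rw [coe_spDiv]
    show Finsupp.mapDomain r (Finsupp.single P (1 : ℤ) - Finsupp.single Q 1) = _
    have h2 : Finsupp.mapDomain r (Finsupp.single P (1 : ℤ) -
        Finsupp.single Q 1) = Finsupp.mapDomain r (Finsupp.single P (1 : ℤ)) -
        Finsupp.mapDomain r (Finsupp.single Q 1) :=
      map_sub (Finsupp.mapDomain.addMonoidHom r) _ _
    rw [h2, Finsupp.mapDomain_single, Finsupp.mapDomain_single]
  refine ⟨{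
    pk := pk
    Y := Place κ (modularFunctionFieldFullC κ p)
    r := r
    diff := fun P Q h => ?_
    zero := fun P a b hPa hPb ha hba => ?_
    inf := fun P a b hPa hPb ha hab => ?_
    uniq_zero := fun P P' b hP hP' hb h h' => ?_
    uniq_inf := fun P P' a hP hP' ha h h' => ?_
    cusp := fun hp' => ?_ }⟩
  · rw [hspd]
    refine Eq.trans ?_ Pic0.mk_zero
    congr 1
    apply Subtype.ext
    rw [hcoe, h, sub_self]
    rfl
  · rw [hcz]
    exact red_near_zero hra (cD p) (cK) (hπ0) P a b hPa hPb ha hba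
  · rw [hci]
    exact red_near_inf hra (cD p) (cK) (hπ0) P a b hPa hPb ha hab
  · exact unique_near_zero hra (cD p) (cK) (hπ0) hP hP' hb (h.trans hcz)
      (h'.trans hcz)
  · exact unique_near_inf hra (cD p) (cK) (hπ0) hP hP' ha (h.trans hci)
      (h'.trans hci)
  · have h3 : (genusFF Qb (modularFunctionFieldBar p) : ℤ) = g := genus_eq_of_RRLarge hRR (cInf p)
    have h4 := genus_eq_of_RRLarge hRR₁ (cK).inf
    have h5 := genusFF_ne_zero Qb iotaC hp'
    have h6 : genusFF Qb (modularFunctionFieldBar p) =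
        genusFF Qb (modularFunctionFieldFullC Qb p) :=
      congrArg (fun E : IntermediateField Qb (LaurentSeries Qb) => genusFF Qb E)
        (HeckeRed.laurentBaseChange_full Qb p)
    rw [← h6] at h5
    have hg : genusFF (κ)
      (modularFunctionFieldFullC κ p) ≠ 0 := by omega
    intro h0
    rw [cuspClass, hspd, HeckeRed.mk_eq_zero_iff', Divisor.mem_principal, hcoe] at h0
    refine not_isPrincipal_sub hg ?_ h0
    rw [hci, hcz]
    exact ((cK).inf_ne_zero hp.out.one_lt).symm

theorem nonempty_redX (hℓ : ℓ.Prime) (hℓp : ℓ ≠ p) (A : ValuationSubring Qb)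
    (hA : A.LiesOverPrime ℓ) : Nonempty (RedX p ℓ hℓ A) := by
  have hℓN : ¬ ℓ ∣ p := fun h => hℓp ((Nat.prime_dvd_prime_iff_eq hℓ hp.out).1 h)
  have i1 : IsAlgClosed (IsLocalRing.ResidueField A) := HeckeRed.isAlgClosed_residueField A
  have i2 : CharP (IsLocalRing.ResidueField A) ℓ := charP_residueField hℓ hA
  have i3 : Fact ℓ.Prime := ⟨hℓ⟩
  have i4 : PerfectRing (IsLocalRing.ResidueField A) ℓ := inferInstance
  obtain ⟨g, h1, h2⟩ := Fermat.Agent.Cusps.genusEq p A (fun h =>
    hℓN ((CharP.cast_eq_zero_iff _ ℓ p).mp h))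
  have i5 : IsLocalHom (IsLocalRing.residue A) := inferInstance
  exact nonempty_redX_aux hℓ hℓN A (IsLocalRing.ResidueField A) (IsLocalRing.residue A)
    IsLocalRing.residue_surjective (fun σ hσ => exists_of_inertia hσ)
    (fun σ hσ => exists_of_frobenius hσ) (residue_eq_zero A) h1 h2

end Fermat.Agent.MazX
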