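import Fermat.Agent.MazX.ThmM
import Fermat.Agent.MazX.Local4
import Fermat.Agent.MazX.Global
import Fermat.Agent.Frob.QbarInst

set_option autoImplicit false
set_option linter.unusedSectionVars false

/-!
# S15 modulo the Eisenstein finiteness
-/

noncomputable section

open UpperHalfPlane
open WeierstrassCurve WeierstrassCurve.Affine

namespace Fermat.Agent.MazX

open Fermat.Agent.WP (jC jC_indep' jC_rational exists_tau_jC')
open Fermat.Agent.MzCusp (iotaC)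
open Fermat.Agent.JInv (jInv)

local notation "Qb" => AlgebraicClosure ℚ

/-- the embedding as an algebra map -/
def fC : Qb →ₐ[ℚ] ℂ := IsAlgClosed.lift

theorem fC_apply (x : Qb) : fC x = iotaC x := rfl

section

variable (W : WeierstrassCurve ℤ)

local notation "WQ" => W.map (Int.castRingHom ℚ)

open Classical in
theorem s15core {p : ℕ} (hp : p.Prime) (hp' : p ∉ ({2, 3, 5, 7, 13} : Finset ℕ))
    (hF : ∀ [Fact p.Prime] (q : ℕ), q.Prime → q ∣ p - 1 → EisFin p q)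
    (hΔ : W.Δ ≠ 0)
    (Q : ((W.map (Int.castRingHom ℚ))⁄(AlgebraicClosure ℚ)).Point)
    (hQfix : ∀ σ : AlgebraicClosure ℚ ≃ₐ[ℚ] AlgebraicClosure ℚ, σ • Q = Q)
    (hQord : addOrderOf Q = p)
    (h2Δ : (2 : ℤ) ∣ W.Δ) (h2c₄ : ¬ (2 : ℤ) ∣ W.c₄)
    (h2 : ∀ A : ValuationSubring (AlgebraicClosure ℚ), A.LiesOverPrime 2 →
      ¬ W.InZeroComponentAt A Q)
    (h3Δ : (3 : ℤ) ∣ W.Δ) (h3c₄ : ¬ (3 : ℤ) ∣ W.c₄)
    (h3 : ∀ A : ValuationSubring (AlgebraicClosure ℚ), A.LiesOverPrime 3 →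
      ¬ W.InZeroComponentAt A Q)
    {ℓ : ℕ} (hℓ : ℓ.Prime) (hℓp : ℓ ≠ p) (hℓΔ : (ℓ : ℤ) ∣ W.Δ) (hℓc₄ : ¬ (ℓ : ℤ) ∣ W.c₄)
    (A : ValuationSubring (AlgebraicClosure ℚ)) (hA : A.LiesOverPrime ℓ) :
    ¬ W.InZeroComponentAt A Q := by
  have hfact : Fact p.Prime := ⟨hp⟩
  have hp2 : p ≠ 2 := by rintro rfl; simp at hp'
  have hp3 : p ≠ 3 := by rintro rfl; simp at hp'
  have hell : (WQ).IsElliptic := ⟨by
    rw [WeierstrassCurve.map_Δ]
    exact isUnit_iff_ne_zero.2 (by simpa using hΔ)⟩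
  intro hin
  have hQ0 : Q ≠ 0 := by
    rintro rfl
    rw [addOrderOf_zero] at hQord
    exact hp.one_lt.ne hQord
  have hpQ : p • Q = 0 := by rw [← hQord]; exact addOrderOf_nsmul_eq_zero Q
  -- the two subgroups
  set C : AddSubgroup ((W.map (Int.castRingHom ℚ))⁄(AlgebraicClosure ℚ)).Point := ⊥ with hC
  set C' : AddSubgroup ((W.map (Int.castRingHom ℚ))⁄(AlgebraicClosure ℚ)).Point :=
    AddSubgroup.zmultiples Q with hC'
  have hcardC' : Nat.card C' = p := by rw [hC', Nat.card_zmultiples, hQord]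
  have hfinC' : (C' : Set ((W.map (Int.castRingHom ℚ))⁄(AlgebraicClosure ℚ)).Point).Finite :=
    Nat.finite_of_card_ne_zero (by
      show Nat.card C' ≠ 0
      rw [hcardC']; exact hp.ne_zero)
  set Cf : Finset ((W.map (Int.castRingHom ℚ))⁄(AlgebraicClosure ℚ)).Point := {0} with hCf
  set Cf' : Finset ((W.map (Int.castRingHom ℚ))⁄(AlgebraicClosure ℚ)).Point :=
    hfinC'.toFinset with hCf'
  have hm : ∀ P, P ∈ Cf ↔ P ∈ C := fun P => by
    rw [hCf, hC, Finset.mem_singleton, AddSubgroup.mem_bot]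
  have hm' : ∀ P, P ∈ Cf' ↔ P ∈ C' := fun P => by
    rw [hCf', Set.Finite.mem_toFinset]; rfl
  have hcard : Cf.card = p ^ 0 := by rw [hCf, Finset.card_singleton, pow_zero]
  have hcard' : Cf'.card = p ^ (0 + 1) := by
    rw [zero_add, pow_one, ← hcardC', hCf', ← Set.ncard_eq_toFinset_card _ hfinC']
    rfl
  have hoddp : Odd p := hp.odd_of_ne_two hp2
  have hodd : Odd Cf.card := by rw [hcard, pow_zero]; exact odd_one
  have hodd' : Odd Cf'.card := by rw [hcard', zero_add, pow_one]; exact hoddp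
  have hCC' : C ≤ C' := bot_le
  -- valuation comparison at a multiplicative place
  have key : ∀ {r : ℕ}, r.Prime → r ≠ p → (r : ℤ) ∣ W.Δ → ¬ (r : ℤ) ∣ W.c₄ →
      ∀ B : ValuationSubring Qb, B.LiesOverPrime r → ∃ T : ((W.map (Int.castRingHom ℚ))⁄Qb).Point,
      T ≠ 0 ∧ (2 : ℕ) • T = 0 ∧ 1 < B.valuation (jC T (Cf.erase 0)) ∧
      1 < B.valuation (jC T (Cf'.erase 0)) ∧
      (W.InZeroComponentAt B Q → B.valuation (jC T (Cf.erase 0)) <
        B.valuation (jC T (Cf'.erase 0))) ∧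
      (¬ W.InZeroComponentAt B Q → B.valuation (jC T (Cf'.erase 0)) <
        B.valuation (jC T (Cf.erase 0))) := by
    intro r hr hrp hrΔ hrc B hB
    obtain ⟨T, hT, h2T, t, β, h, hE⟩ := exists_node_of_mult W hΔ hr hB hrΔ hrc
    have hvp : B.valuation (p : Qb) = 1 := by
      have := S05.val_int_eq_one (v := B.valuation) hr (B.mem_nonunits_iff.mp hB) (n := (p : ℤ))
        (by
          intro hd
          exact hrp ((Nat.prime_dvd_prime_iff_eq hr hp).1 (Int.natCast_dvd_natCast.1 hd)))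
      exact_mod_cast this
    obtain ⟨k1, k2, k3, k4⟩ := compare_jC fC h (redMapOf_redMap B) hT h2T hp hp2 hvp hm hm' hCC'
      hcard hcard' bot_le
    have hiff : C' ≤ h.E0 ↔ W.InZeroComponentAt B Q := by
      rw [hE, hC', AddSubgroup.zmultiples_le]
    exact ⟨T, hT, h2T, k1, k2, fun hh => k3 (hiff.2 hh), fun hh => k4 (fun h' => hh (hiff.1 h'))⟩
  -- rationality
  obtain ⟨T, hT, h2T, kA1, kA2, kA3, -⟩ := key hℓ hℓp hℓΔ hℓc₄ A hA
  have hgal : IsGalois ℚ Qb := inferInstance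
  obtain ⟨a, ha⟩ := jC_rational fC hm hodd hT h2T (fun σ P hP => by
    rw [hC, AddSubgroup.mem_bot] at hP ⊢
    rw [hP, smul_zero])
  obtain ⟨b, hb⟩ := jC_rational fC hm' hodd' hT h2T (fun σ P hP => by
    rw [hC', AddSubgroup.mem_zmultiples_iff] at hP ⊢
    obtain ⟨k, rfl⟩ := hP
    refine ⟨k, ?_⟩
    have h1 := map_zsmul (DistribSMul.toAddMonoidHom
      ((W.map (Int.castRingHom ℚ))⁄(AlgebraicClosure ℚ)).Point σ) k Q
    simp only [DistribSMul.toAddMonoidHom_apply] at h1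
    rw [hQfix σ] at h1
    exact h1.symm)
  obtain ⟨τ, hτ1, hτ2⟩ := exists_tau_jC' fC hp hm hm' hodd hodd' (c := Q)
    (by rw [hC, AddSubgroup.mem_bot]; exact hQ0) (by rw [hpQ]; exact C.zero_mem)
    (fun P => by
      rw [hC', AddSubgroup.mem_zmultiples_iff]
      constructor
      · rintro ⟨k, rfl⟩
        exact ⟨k, by rw [sub_self]; exact C.zero_mem⟩
      · rintro ⟨k, hk⟩
        rw [hC, AddSubgroup.mem_bot, sub_eq_zero] at hk
        exact ⟨k, hk.symm⟩) hT h2T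
  have key2 : ∀ {r : ℕ}, r.Prime → r ≠ p → (r : ℤ) ∣ W.Δ → ¬ (r : ℤ) ∣ W.c₄ →
      (∀ B : ValuationSubring Qb, B.LiesOverPrime r → ¬ W.InZeroComponentAt B Q) →
      ∀ B : ValuationSubring Qb, B.LiesOverPrime r → 1 < B.valuation (algebraMap ℚ Qb b) ∧
        B.valuation (algebraMap ℚ Qb b) < B.valuation (algebraMap ℚ Qb a) := by
    intro r hr hrp hrΔ hrc hn B hB
    obtain ⟨T', hT', h2T', -, k2, -, k4⟩ := key hr hrp hrΔ hrc B hB
    have e1 : jC T' (Cf.erase 0) = jC T (Cf.erase 0) := jC_indep' fC hm hodd hT' h2T' hT h2T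
    have e2 : jC T' (Cf'.erase 0) = jC T (Cf'.erase 0) := jC_indep' fC hm' hodd' hT' h2T' hT h2T
    rw [e2, ← hb] at k2 k4
    rw [e1, ← ha] at k4
    exact ⟨k2, k4 (hn B hB)⟩
  refine theoremM_zero hp2 hp3 hp' hF a b τ ?_ ?_ (key2 Nat.prime_two hp2.symm h2Δ h2c₄ h2)
    (key2 Nat.prime_three hp3.symm h3Δ h3c₄ h3) ℓ hℓ hℓp A hA ?_ ?_
  · rw [← hτ1, ← ha, fC_apply, eq_ratCast, map_ratCast]
  · rw [← eq_ratCast (algebraMap ℚ ℂ) b, ← fC.commutes b, hb]
    exact hτ2.symm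
  · rw [ha]; exact kA1
  · rw [ha, hb]; exact (kA3 hin).le

end

end Fermat.Agent.MazX
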