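import Fermat.Agent.MzCusp.Reduction

set_option autoImplicit false
set_option linter.unusedSectionVars false

/-!
# Uniqueness of places near the cusps
-/

noncomputable section

open ModularCurve AlgebraicCurve

attribute [-instance] Fermat.Agent.X0Places.ffField Fermat.Agent.X0Places.ffAlgebra

namespace Fermat.Agent.MazX

open Fermat.Agent.FunField Fermat.Agent.FunField.PlaceLemmas IntermediateField
open Fermat.Agent.Deuring (mapDomain_mono)
open Fermat.Agent.MzCusp

variable {L : Type*} [Field L] [Algebra ℚ L] [IsAlgClosed L] {A : ValuationSubring L}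
  {k : Type*} [Field k] [IsAlgClosed k] {π : A →+* k} {N : ℕ} [hN : Fact N.Prime]
  {r : Place L (laurentBaseChange L (modularFunctionFieldFull N)) →
    Place k (modularFunctionFieldFullC k N)}
  (hr : IsPlaceReductionAlong A π N r)

include hr in
/-- zeros of `u - a`, `|a| > 1`, reduce to the reductions of the poles of `u`. -/
theorem red_zeroDiv_shift (hπ : ∀ x : A, A.valuation x < 1 → π x = 0)
    (u : laurentBaseChange L (modularFunctionFieldFull N)) (y₀ : LaurentSeries A)
    (hu : (u : LaurentSeries L) = coeffMap A.subtype y₀) (a : L) (ha : 1 < A.valuation a)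
    (hne : u - algebraMap L _ a ≠ 0) :
    Finsupp.mapDomain r (zeroDiv (u - algebraMap L (laurentBaseChange L
      (modularFunctionFieldFull N)) a)) = Finsupp.mapDomain r (poleDiv u) := by
  classical
  have ha0 : a ≠ 0 := by
    rintro rfl
    rw [map_zero] at ha
    exact absurd ha (not_lt.2 zero_le)
  have hai : A.valuation a⁻¹ < 1 := by
    rw [map_inv₀]
    exact inv_lt_one_of_one_lt₀ ha
  have haA : a⁻¹ ∈ A := (A.valuation_le_one_iff _).1 hai.le
  set f : laurentBaseChange L (modularFunctionFieldFull N) :=
    algebraMap L _ a⁻¹ * (u - algebraMap L _ a) with hf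
  have hC0 : algebraMap L (laurentBaseChange L (modularFunctionFieldFull N)) a⁻¹ ≠ 0 := by
    simpa using ha0
  have hordf : ∀ Q : Place L (laurentBaseChange L (modularFunctionFieldFull N)),
      Q.ord f = Q.ord (u - algebraMap L _ a) := by
    intro Q
    rw [hf, Q.ord_mul hC0 hne, ord_algebraMap, zero_add]
  set y : LaurentSeries A := HahnSeries.single 0 (⟨a⁻¹, haA⟩ : A) * y₀ - 1 with hydef
  have hfy : (f : LaurentSeries L) = coeffMap A.subtype y := by
    rw [hydef, map_sub, map_mul, coeffMap_single, map_one, hf, mul_sub]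
    rw [← map_mul, inv_mul_cancel₀ ha0, map_one]
    show ((algebraMap L (laurentBaseChange L (modularFunctionFieldFull N)) a⁻¹ :
      laurentBaseChange L (modularFunctionFieldFull N)) : LaurentSeries L) *
      (u : LaurentSeries L) - 1 = _
    rw [C_coe_sub, hu]
    rfl
  have hf1y : ((-1 : modularFunctionFieldFullC k N) : LaurentSeries k) = coeffMap π y := by
    rw [hydef, map_sub, map_mul, coeffMap_single, hπ _ hai, HahnSeries.single_eq_zero, zero_mul,
      map_one, zero_sub]
    rfl
  have hy : coeffMap A.subtype y ∈ laurentBaseChange L (modularFunctionFieldFull N) := hfy ▸ f.2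
  have hyk : coeffMap π y ∈ modularFunctionFieldFullC k N := hf1y ▸ (-1 :
    modularFunctionFieldFullC k N).2
  have h1 := red_divOf hr y hy hyk (by
    rw [← hf1y]
    simp)
  have e1 : (⟨coeffMap A.subtype y, hy⟩ :
      laurentBaseChange L (modularFunctionFieldFull N)) = f := Subtype.ext hfy.symm
  have e2 : (⟨coeffMap π y, hyk⟩ : modularFunctionFieldFullC k N) = -1 := Subtype.ext hf1y.symm
  rw [e1, e2, divOf_eq_sub] at h1
  have h0 : divOf (-1 : modularFunctionFieldFullC k N) = (0 : Divisor k _) := by
    ext Q
    rw [divOf_apply]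
    have h2 : (-1 : modularFunctionFieldFullC k N) = algebraMap k _ (-1) := by
      rw [map_neg, map_one]
    rw [h2, ord_algebraMap]
    rfl
  have h2 : Finsupp.mapDomain r (zeroDiv f - poleDiv f) =
      Finsupp.mapDomain r (zeroDiv f) - Finsupp.mapDomain r (poleDiv f) :=
    map_sub (Finsupp.mapDomain.addMonoidHom r) _ _
  rw [h0, h2, sub_eq_zero] at h1
  have hpole : (poleDiv f : Divisor L (laurentBaseChange L (modularFunctionFieldFull N))) =
      poleDiv u := by
    ext Q
    rw [poleDiv_apply, poleDiv_apply, hordf, max_ord_sub]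
  have hzero : (zeroDiv f : Divisor L (laurentBaseChange L (modularFunctionFieldFull N))) =
      zeroDiv (u - algebraMap L _ a) := by
    ext Q
    rw [zeroDiv_apply, zeroDiv_apply, hordf]
  rw [hpole, hzero] at h1
  exact h1

theorem eq_of_two_zeros {u : laurentBaseChange L (modularFunctionFieldFull N)}
    {D : Divisor k (modularFunctionFieldFullC k N)} {R : Place k (modularFunctionFieldFullC k N)}
    (h : Finsupp.mapDomain r (zeroDiv u) = D) (hD : D R ≤ 1)
    {P P' : Place L (laurentBaseChange L (modularFunctionFieldFull N))}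
    (hP : 0 < P.ord u) (hP' : 0 < P'.ord u) (hPR : r P = R) (hPR' : r P' = R) : P = P' := by
  classical
  by_contra hne
  have h4 : Finsupp.single P 1 + Finsupp.single P' 1 ≤ (zeroDiv u :
      Divisor L (laurentBaseChange L (modularFunctionFieldFull N))) := by
    intro Q
    rw [Finsupp.add_apply, Finsupp.single_apply, Finsupp.single_apply, zeroDiv_apply]
    by_cases hQ : P = Q
    · subst hQ
      rw [if_pos rfl, if_neg (Ne.symm hne)]
      refine le_max_of_le_left ?_
      omega
    · rw [if_neg hQ]
      by_cases hQ' : P' = Q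
      · subst hQ'
        rw [if_pos rfl]
        refine le_max_of_le_left ?_
        omega
      · rw [if_neg hQ']
        exact le_max_right _ _
  have h5 := mapDomain_mono r h4 R
  rw [h, Finsupp.mapDomain_add, Finsupp.mapDomain_single, Finsupp.mapDomain_single, hPR, hPR',
    Finsupp.add_apply, Finsupp.single_eq_same] at h5
  omega

variable (C : CuspData L N (laurentBaseChange L (modularFunctionFieldFull N)))
  (C₁ : CuspData k N (modularFunctionFieldFullC k N))

include hr in
theorem unique_near_inf (hπ : ∀ x : A, A.valuation x < 1 → π x = 0)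
    {P P' : Place L (laurentBaseChange L (modularFunctionFieldFull N))} {a : L}
    (hP : 0 < P.ord (C.j - algebraMap L _ a)) (hP' : 0 < P'.ord (C.j - algebraMap L _ a))
    (ha : 1 < A.valuation a) (h : r P = C₁.inf) (h' : r P' = C₁.inf) : P = P' := by
  classical
  have hne : C.j - algebraMap L (laurentBaseChange L (modularFunctionFieldFull N)) a ≠ 0 := by
    intro h0
    rw [h0, P.ord_zero] at hP
    exact absurd hP (lt_irrefl _)
  have h1 := red_zeroDiv_shift hr hπ C.j (jqModC A) (by rw [C.coe_j, coeffMap_jqModC]) a ha hne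
  rw [C.poleDiv_j, Finsupp.mapDomain_add, Finsupp.mapDomain_single, Finsupp.mapDomain_single,
    (red_cusps hr C C₁).1, (red_cusps hr C C₁).2] at h1
  refine eq_of_two_zeros h1 ?_ hP hP' h h'
  rw [Finsupp.add_apply, Finsupp.single_eq_same,
    Finsupp.single_eq_of_ne (C₁.inf_ne_zero hN.out.one_lt), add_zero]

include hr in
theorem unique_near_zero (hπ : ∀ x : A, A.valuation x < 1 → π x = 0)
    {P P' : Place L (laurentBaseChange L (modularFunctionFieldFull N))} {b : L}
    (hP : 0 < P.ord (C.jp - algebraMap L _ b)) (hP' : 0 < P'.ord (C.jp - algebraMap L _ b))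
    (hb : 1 < A.valuation b) (h : r P = C₁.zero) (h' : r P' = C₁.zero) : P = P' := by
  classical
  have hne : C.jp - algebraMap L (laurentBaseChange L (modularFunctionFieldFull N)) b ≠ 0 := by
    intro h0
    rw [h0, P.ord_zero] at hP
    exact absurd hP (lt_irrefl _)
  have h1 := red_zeroDiv_shift hr hπ C.jp (qExpand A N (jqModC A)) (by
    rw [C.coe_jp, ModularCurve.coeffMap_qExpand, coeffMap_jqModC]) b hb hne
  rw [C.poleDiv_jp, Finsupp.mapDomain_add, Finsupp.mapDomain_single, Finsupp.mapDomain_single,
    (red_cusps hr C C₁).1, (red_cusps hr C C₁).2] at h1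
  refine eq_of_two_zeros h1 ?_ hP hP' h h'
  rw [Finsupp.add_apply, Finsupp.single_eq_same,
    Finsupp.single_eq_of_ne (Ne.symm (C₁.inf_ne_zero hN.out.one_lt)), zero_add]

end Fermat.Agent.MazX
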