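import Fermat.Agent.MazX.S15Core
import Fermat.Agent.MzGal.EisFin
import Fermat.Agent.Iter.Wire
import Fermat.Agent.MW.JZeroFG
import Fermat.Agent.S10
import Fermat.Agent.S11
import Fermat.Agent.S13

set_option autoImplicit false

/-!
# Final wiring of S15, S12, S09 from the local data
-/

namespace Fermat.Agent.MazX

open WeierstrassCurve WeierstrassCurve.Affine WeierstrassCurve.Affine.Point

/-- the local inputs for all primes `p ≥ 11` -/
def LocalAll : Prop :=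
  ∀ (p q : ℕ) [Fact p.Prime], 11 ≤ p → q.Prime → q ∣ p - 1 → MzGal.HasLocal p q

theorem eisFin_all (H : LocalAll) {p : ℕ} [Fact p.Prime] (hp : 11 ≤ p) (q : ℕ) (hq : q.Prime)
    (hqp : q ∣ p - 1) : EisFin p q :=
  MzGal.eisFin_of_local hq (MW.fg_JZero p) (H p q hp hq hqp)

theorem s12_of_local (H : LocalAll) (P : FreyPackage) (hp : 17 ≤ P.p) :
    ¬ HasGaloisStableCofixedLine (K := AlgebraicClosure ℚ) ℚ P.freyCurve P.p :=
  Iter.not_cofixed_of_eisFin P hp fun q hq hqp => eisFin_all H (by omega) q hq hqp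

theorem s09_of_local (H : LocalAll) (P : FreyPackage) :
    GaloisRepIsIrreducible (K := AlgebraicClosure ℚ) ℚ P.freyCurve P.p := by
  by_contra hred
  have h := S13.result P hred
  have h5 := P.hp5
  have hpr := P.pp
  by_cases h17 : 17 ≤ P.p
  · exact s12_of_local H P h17 h
  · have hlt : P.p < 17 := by omega
    have hcases : P.p = 5 ∨ P.p = 7 ∨ P.p = 13 ∨ P.p = 11 := by
      generalize P.p = n at *
      interval_cases n <;> first | (norm_num at hpr; done) | simp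
    rcases hcases with h1 | h1 | h1 | h1
    · exact S10.result P (Or.inl h1) h
    · exact S10.result P (Or.inr (Or.inl h1)) h
    · exact S10.result P (Or.inr (Or.inr h1)) h
    · exact S11.result P h1 h

theorem s15_of_local (H : LocalAll)
    {p : ℕ} (hp : p.Prime) (hp' : p ∉ ({2, 3, 5, 7, 13} : Finset ℕ))
    (W : WeierstrassCurve ℤ) (hΔ : W.Δ ≠ 0)
    (Q : ((W.map (Int.castRingHom ℚ))⁄(AlgebraicClosure ℚ)).Point)
    (hQfix : ∀ σ : AlgebraicClosure ℚ ≃ₐ[ℚ] AlgebraicClosure ℚ, σ • Q = Q)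
    (hQord : addOrderOf Q = p)
    (h2Δ : (2 : ℤ) ∣ W.Δ) (h2c₄ : ¬ (2 : ℤ) ∣ W.c₄)
    (h2 : ∀ A : ValuationSubring (AlgebraicClosure ℚ), A.LiesOverPrime 2 →
      ¬ W.InZeroComponentAt A Q)
    (h3Δ : (3 : ℤ) ∣ W.Δ) (h3c₄ : ¬ (3 : ℤ) ∣ W.c₄)
    (h3 : ∀ A : ValuationSubring (AlgebraicClosure ℚ), A.LiesOverPrime 3 →
      ¬ W.InZeroComponentAt A Q)
    {ℓ : ℕ} (hℓ : ℓ.Prime) (hℓp : ℓ ≠ p) (hℓΔ : (ℓ : ℤ) ∣ W.Δ) (hℓc₄ : ¬ (ℓ : ℤ) ∣ W.c₄)
    (A : ValuationSubring (AlgebraicClosure ℚ)) (hA : A.LiesOverPrime ℓ) :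
    ¬ W.InZeroComponentAt A Q := by
  have h11 : 11 ≤ p := by
    by_contra hlt
    have hlt' : p < 11 := by omega
    clear hQord h2 h3 hℓp
    interval_cases p <;> first | (simp at hp'; done) | (norm_num at hp; done)
  exact s15core W hp hp' (fun q hq hqp => eisFin_all H h11 q hq hqp) hΔ Q hQfix hQord h2Δ h2c₄ h2
    h3Δ h3c₄ h3 hℓ hℓp hℓΔ hℓc₄ A hA

end Fermat.Agent.MazX
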